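import Fermat.Agent.Newforms.Eigen
import Fermat.Prelude.Def_CuspForm_HeckeAlgebra

/-!
# Restriction of the Hecke algebra to a lower level
-/

set_option autoImplicit false

noncomputable section

open CongruenceSubgroup

namespace Fermat.Agent.OrdinaryAtP

variable {M R : ℕ} [NeZero M] [NeZero R]

/-- An element of the Hecke algebra away from `S`, `S` containing the primes of the level,
restricts along the inclusion of a lower level. -/
theorem exists_restrict_away (hR : R ∣ M) {S S' : Set ℕ} (hSS : S ⊆ S')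
    (hMS : ∀ q : ℕ, q.Prime → q ∣ M → q ∈ S') (t : CuspForm.heckeAlgebra M 2 S') :
    ∃ t' : CuspForm.heckeAlgebra R 2 S, ∀ f : CuspForm (Gamma0 R) 2,
      t.1 (Newforms.levelIncl hR f) = Newforms.levelIncl hR (t'.1 f) := by
  obtain ⟨t, ht⟩ := t
  induction ht using Algebra.adjoin_induction with
  | mem x hx =>
    rcases hx with ⟨ℓ, hℓ, hℓM, hℓS, rfl⟩ | ⟨q, hqM, hq, hqS, rfl⟩
    · refine ⟨CuspForm.heckeAlgebra.T hℓ (fun h => hℓM (h.trans hR))
        (fun h => hℓS (hSS h)), fun f => ?_⟩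
      show CuspForm.heckeTLin 2 hℓ hℓM _ =
        Newforms.levelIncl hR (CuspForm.heckeTLin 2 hℓ (fun h => hℓM (h.trans hR)) f)
      rw [← Newforms.hOp_eq_heckeTLin hℓ, ← Newforms.hOp_eq_heckeTLin hℓ]
      exact Newforms.hOp_levelIncl hℓ hR
        ⟨fun h => absurd h hℓM, fun h => h.trans hR⟩ f
    · exact absurd (hMS q hq hqM) hqS
  | algebraMap r =>
    refine ⟨algebraMap ℤ _ r, fun f => ?_⟩
    simp only [Subalgebra.coe_algebraMap, Module.algebraMap_end_apply, map_zsmul]
  | add x y _ _ hx hy =>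
    obtain ⟨a, ha⟩ := hx
    obtain ⟨b, hb⟩ := hy
    exact ⟨a + b, fun f => by
      rw [Subalgebra.coe_add, LinearMap.add_apply, LinearMap.add_apply, map_add, ha, hb]⟩
  | mul x y _ _ hx hy =>
    obtain ⟨a, ha⟩ := hx
    obtain ⟨b, hb⟩ := hy
    exact ⟨a * b, fun f => by
      rw [Subalgebra.coe_mul, Module.End.mul_apply, Module.End.mul_apply, hb, ha]⟩

/-- Restriction to a lower level as a ring homomorphism. -/
theorem exists_restrictHom (hR : R ∣ M) {S S' : Set ℕ} (hSS : S ⊆ S')
    (hMS : ∀ q : ℕ, q.Prime → q ∣ M → q ∈ S') :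
    ∃ r : CuspForm.heckeAlgebra M 2 S' →+* CuspForm.heckeAlgebra R 2 S,
      (∀ t f, t.1 (Newforms.levelIncl hR f) = Newforms.levelIncl hR ((r t).1 f)) ∧
      ∀ (ℓ : ℕ) (hℓ : ℓ.Prime) (hℓM : ¬ ℓ ∣ M) (hℓS : ℓ ∉ S'),
        r (CuspForm.heckeAlgebra.T hℓ hℓM hℓS) =
          CuspForm.heckeAlgebra.T hℓ (fun h => hℓM (h.trans hR)) (fun h => hℓS (hSS h)) := by
  have hinj : Function.Injective (Newforms.levelIncl (k := 2) hR) :=
    Newforms.levelRaise_injective (M := R) (d := 1) (by rwa [one_mul])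
  choose res hres using exists_restrict_away hR hSS hMS
  have huniq : ∀ t (t' : CuspForm.heckeAlgebra R 2 S),
      (∀ f, t.1 (Newforms.levelIncl hR f) = Newforms.levelIncl hR (t'.1 f)) → res t = t' :=
    fun t t' h => Subtype.ext (LinearMap.ext fun f => hinj ((hres t f).symm.trans (h f)))
  refine ⟨
    { toFun := res
      map_one' := huniq _ _ fun f => rfl
      map_mul' := fun a b => huniq _ _ fun f => by
        rw [Subalgebra.coe_mul, Subalgebra.coe_mul, Module.End.mul_apply, Module.End.mul_apply,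
          hres b, hres a]
      map_zero' := huniq _ _ fun f => by simp
      map_add' := fun a b => huniq _ _ fun f => by
        rw [Subalgebra.coe_add, Subalgebra.coe_add, LinearMap.add_apply, LinearMap.add_apply,
          map_add, hres b, hres a] }, hres, fun ℓ hℓ hℓM hℓS => huniq _ _ fun f => ?_⟩
  show CuspForm.heckeTLin 2 hℓ hℓM _ = _
  rw [← Newforms.hOp_eq_heckeTLin hℓ, Newforms.hOp_levelIncl hℓ hR
    ⟨fun h => absurd h hℓM, fun h => h.trans hR⟩, Newforms.hOp_eq_heckeTLin hℓ fun h => hℓM (h.trans hR)]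
  rfl

end Fermat.Agent.OrdinaryAtP

end
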