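import Fermat.Agent.FiniteFlat.SpanTop
import Mathlib.Algebra.Group.ForwardDiff
import Mathlib.RingTheory.Filtration
import Mathlib.RingTheory.PrincipalIdealDomain
import Mathlib.LinearAlgebra.FreeModule.PID
import Mathlib.LinearAlgebra.Basis.VectorSpace
import Mathlib.Algebra.Module.Projective
import Mathlib.Data.ZMod.Basic
import Mathlib.Data.Nat.Choose.Dvd
import Mathlib.FieldTheory.Finite.Basic

/-!
# Congruent points have no trivial quotient (absolute ramification one)

Functions on a finite group forming an algebra which is closed under translation and all of whose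
members are congruent to their value at the origin cannot factor through a quotient of order `p`
with trivial action, if `p` is a uniformiser of the ring of invariant integers and `p ≥ 3`.
-/

set_option autoImplicit false
set_option linter.style.haveILetI false
set_option linter.unusedSectionVars false

noncomputable section

open Finset
open scoped fwdDiff

namespace Fermat.Agent.OrdinaryAtP

section Difference

variable {W : Type*} [CommRing W] [IsDomain W] {p : ℕ} [hp : Fact p.Prime]
  (H : Submodule W (ZMod p → W))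

/-- Translation is bilinear on `H`. -/
def IsTranslationClosed : Prop :=
  ∀ g ∈ H, ∃ (ι : Type) (_ : Fintype ι) (u v : ι → ZMod p → W),
    (∀ i, u i ∈ H) ∧ (∀ i, v i ∈ H) ∧ ∀ x y, g (x + y) = ∑ i, u i x * v i y

variable {H}

theorem pow_dvd_fwdDiff (hH : IsTranslationClosed H) {s : ℕ}
    (hs : ∀ g ∈ H, ∀ x, (p : W) ^ s ∣ g x - g 0) :
    ∀ k, ∀ g ∈ H, (p : W) ^ (k * s) ∣ (Δ_[(1 : ZMod p)]^[k] g) 0 := by
  intro k
  induction k with
  | zero => intro g _; simp
  | succ k ih =>
    intro g hg
    obtain ⟨ι, _, u, v, hu, hv, huv⟩ := hH g hg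
    have hd : Δ_[(1 : ZMod p)] g = ∑ i, (v i 1 - v i 0) • u i := by
      funext x
      have h0 : g x = ∑ i, u i x * v i 0 := by rw [← huv, add_zero]
      simp only [fwdDiff, huv, h0, Finset.sum_apply, Pi.smul_apply, smul_eq_mul,
        ← Finset.sum_sub_distrib]
      exact Finset.sum_congr rfl fun i _ => by ring
    rw [Function.iterate_succ_apply, hd, fwdDiff_iter_finsetSum, Finset.sum_apply]
    refine Finset.dvd_sum fun i _ => ?_
    rw [fwdDiff_iter_const_smul, Pi.smul_apply, smul_eq_mul, Nat.succ_mul, pow_add, mul_comm]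
    exact mul_dvd_mul (hs _ (hv i) 1) (ih _ (hu i))

theorem pow_succ_dvd_sub (hp3 : 3 ≤ p) (hp0 : (p : W) ≠ 0) (hH : IsTranslationClosed H) {s : ℕ}
    (hs1 : 1 ≤ s) (hs : ∀ g ∈ H, ∀ x, (p : W) ^ s ∣ g x - g 0) :
    ∀ g ∈ H, ∀ x, (p : W) ^ (s + 1) ∣ g x - g 0 := by
  intro g hg x
  set a : ℕ → W := fun k => (Δ_[(1 : ZMod p)]^[k] g) 0 with ha
  have hak : ∀ k, (p : W) ^ (k * s) ∣ a k := fun k => pow_dvd_fwdDiff hH hs k g hg
  have hshift : ∀ n : ℕ, g (n • (1 : ZMod p)) =
      a 0 + ∑ k ∈ range n, n.choose (k + 1) • a (k + 1) := by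
    intro n
    have := shift_eq_sum_fwdDiff_iter (1 : ZMod p) g n 0
    rw [zero_add, Finset.sum_range_succ'] at this
    rw [this, Nat.choose_zero_right, one_smul, add_comm]
  have ha0 : a 0 = g 0 := rfl
  have h1 : (p : W) ^ (s + 1) ∣ a 1 := by
    obtain ⟨r, hr⟩ : ∃ r, p = r + 1 := ⟨p - 1, by omega⟩
    have hper := hshift p
    rw [nsmul_one, ZMod.natCast_self, ha0, left_eq_add] at hper
    conv_lhs at hper => rw [hr, Finset.sum_range_succ']
    rw [← hr] at hper
    rw [zero_add, Nat.choose_one_right, add_comm, add_eq_zero_iff_eq_neg, nsmul_eq_mul] at hper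
    refine (mul_dvd_mul_iff_left hp0).mp ?_
    rw [← pow_succ', hper, dvd_neg]
    refine Finset.dvd_sum fun k hk => ?_
    rw [Finset.mem_range] at hk
    rw [nsmul_eq_mul]
    rcases eq_or_lt_of_le (show k + 1 + 1 ≤ p by omega) with he | hl
    · rw [he, Nat.choose_self, Nat.cast_one, one_mul]
      refine (pow_dvd_pow _ ?_).trans (hak p)
      have : 3 * s ≤ p * s := Nat.mul_le_mul_right s hp3
      omega
    · obtain ⟨c, hc⟩ := Nat.Prime.dvd_choose_self hp.out (by omega : k + 1 + 1 ≠ 0) hl
      rw [hc, Nat.cast_mul, pow_succ' (p : W) (s + 1), mul_assoc]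
      refine mul_dvd_mul_left _ ((pow_dvd_pow _ ?_).trans (dvd_mul_of_dvd_right (hak _) _))
      have : 2 * s ≤ (k + 1 + 1) * s := Nat.mul_le_mul_right s (by omega)
      omega
  rw [← ZMod.natCast_zmod_val x, ← nsmul_one x.val, hshift x.val, ha0, add_sub_cancel_left]
  refine Finset.dvd_sum fun k _ => ?_
  rw [nsmul_eq_mul]
  refine dvd_mul_of_dvd_right ?_ _
  rcases k with _ | k
  · exact h1
  · refine (pow_dvd_pow _ ?_).trans (hak _)
    have : 2 * s ≤ (k + 1 + 1) * s := Nat.mul_le_mul_right s (by omega)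
    omega

theorem pow_dvd_sub (hp3 : 3 ≤ p) (hp0 : (p : W) ≠ 0) (hH : IsTranslationClosed H)
    (hs : ∀ g ∈ H, ∀ x, (p : W) ∣ g x - g 0) (s : ℕ) :
    ∀ g ∈ H, ∀ x, (p : W) ^ (s + 1) ∣ g x - g 0 := by
  induction s with
  | zero => simpa using hs
  | succ s ih => exact pow_succ_dvd_sub hp3 hp0 hH (by omega) ih

end Difference

/-- The hypotheses: an algebra of equivariant functions on a finite group with congruent values.
`σ` describes the automorphisms of the field, `act` their action on the group, and `W` the integral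
invariants. -/
structure CongruentAlgebra {Ω : Type*} [Field Ω] {ι : Type*} {G : Type*} [AddCommGroup G]
    (W : Subring Ω) (σ : ι → (Ω ≃+* Ω)) (act : ι → G ≃ G) (p : ℕ) where
  /-- the algebra -/
  H : Subalgebra W (G → Ω)
  fin : Module.Finite W H
  frac : ∀ x : Ω, (∀ i, σ i x = x) → ∃ w : W, w ≠ 0 ∧ (w : Ω) * x ∈ W
  fixed : ∀ (w : W) (i : ι), σ i (w : Ω) = w
  equivariant : ∀ f ∈ H, ∀ i m, f (act i m) = σ i (f m)
  separates : ∀ m m', (∀ f ∈ H, f m = f m') → m = m'
  integral : ∀ f ∈ H, ∀ m, (∀ i, σ i (f m) = f m) → f m ∈ W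
  congr : ∀ f ∈ H, ∀ (m : G) (a b : W), f m = a → f 0 = b → (p : W) ∣ a - b
  comul : ∀ f ∈ H, ∃ (κ : Type) (_ : Fintype κ) (a b : κ → G → Ω),
    (∀ k, a k ∈ H) ∧ (∀ k, b k ∈ H) ∧ ∀ x y, f (x + y) = ∑ k, a k x * b k y

namespace CongruentAlgebra

variable {Ω : Type*} [Field Ω] {ι : Type*} {G : Type*} [AddCommGroup G]
  {W : Subring Ω} {σ : ι → (Ω ≃+* Ω)} {act : ι → G ≃ G} {p : ℕ}
  (O : CongruentAlgebra W σ act p)

include O in
theorem exists_smul_mem {κ : Type*} (s : Finset κ) (c : κ → Ω) (hc : ∀ k ∈ s, ∀ i, σ i (c k) = c k) :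
    ∃ w : W, w ≠ 0 ∧ ∀ k ∈ s, (w : Ω) * c k ∈ W := by
  classical
  induction s using Finset.induction with
  | empty => exact ⟨1, one_ne_zero, by simp⟩
  | insert k t hk ih =>
    obtain ⟨w, hw, hwt⟩ := ih fun l hl => hc l (Finset.mem_insert_of_mem hl)
    obtain ⟨v, hv, hvk⟩ := O.frac _ (hc k (Finset.mem_insert_self k t))
    refine ⟨w * v, mul_ne_zero hw hv, fun l hl => ?_⟩
    rw [Subring.coe_mul]
    rcases Finset.mem_insert.mp hl with rfl | hl
    · rw [mul_assoc]; exact mul_mem w.2 hvk
    · rw [mul_right_comm]; exact mul_mem (hwt l hl) v.2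

/-- `W`-independent members are independent over `Ω`. -/
theorem eq_zero_of_sum_eq_zero {κ : Type*} (s : Finset κ) (r : κ → O.H)
    (hr : LinearIndependent W r) (c : κ → Ω)
    (h : ∀ m, ∑ k ∈ s, c k * (r k : G → Ω) m = 0) : ∀ k ∈ s, c k = 0 := by
  classical
  induction s using Finset.strongInduction generalizing c with
  | H s ih =>
    by_contra! hne
    obtain ⟨j, hj, hcj⟩ := hne
    set d : κ → Ω := fun k => c k * (c j)⁻¹ with hd
    have hdj : d j = 1 := mul_inv_cancel₀ hcj
    have hd0 : ∀ m, ∑ k ∈ s, d k * (r k : G → Ω) m = 0 := fun m => by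
      simp only [hd, mul_right_comm _ (c j)⁻¹, ← Finset.sum_mul, h m, zero_mul]
    have hfix : ∀ k ∈ s, ∀ i, σ i (d k) = d k := by
      intro k hk i
      rcases eq_or_ne k j with rfl | hkj
      · rw [hdj, map_one]
      have hsub : ∀ m, ∑ l ∈ s.erase j, (σ i (d l) - d l) * (r l : G → Ω) m = 0 := by
        intro m
        rw [Finset.sum_erase _ (by rw [hdj, map_one, sub_self, zero_mul])]
        simp only [sub_mul, Finset.sum_sub_distrib, hd0 m, sub_zero]
        have := congrArg (σ i) (hd0 ((act i).symm m))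
        simp only [map_sum, map_mul, map_zero] at this
        refine Eq.trans (Finset.sum_congr rfl fun l _ => ?_) this
        rw [← O.equivariant _ (r l).2, Equiv.apply_symm_apply]
      exact sub_eq_zero.mp (ih _ (Finset.erase_ssubset hj) (fun l => σ i (d l) - d l) hsub k
        (Finset.mem_erase.mpr ⟨hkj, hk⟩))
    obtain ⟨w, hw, hwd⟩ := O.exists_smul_mem s d hfix
    have hrel : ∑ k : s, (⟨(w : Ω) * d k, hwd k k.2⟩ : W) • r k = 0 := by
      refine Subtype.ext (funext fun m => ?_)
      simp only [AddSubmonoidClass.coe_finsetSum, Finset.sum_apply, SetLike.val_smul,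
        Pi.smul_apply, Subring.smul_def, smul_eq_mul, mul_assoc, ← Finset.mul_sum,
        Finset.univ_eq_attach]
      rw [Finset.sum_attach s fun k => d k * (r k : G → Ω) m, hd0, mul_zero]
      rfl
    have hj0 := Fintype.linearIndependent_iff.mp (hr.comp _ Subtype.val_injective) _ hrel ⟨j, hj⟩
    have h1 := congrArg Subtype.val hj0
    simp only [hdj, mul_one, ZeroMemClass.coe_zero] at h1
    exact hw (Subtype.ext h1)

variable [Finite G]

theorem span_eq_top : Submodule.span Ω (O.H : Set (G → Ω)) = ⊤ :=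
  FiniteFlat.span_eq_top_of_separating O.H.toSubsemiring.toSubmonoid fun x y h => O.separates x y h

/-- An equivariant function becomes a member after multiplication by a nonzero element of `W`. -/
theorem exists_smul_mem_H [IsPrincipalIdealRing W] {f : G → Ω}
    (hf : ∀ i m, f (act i m) = σ i (f m)) : ∃ w : W, w ≠ 0 ∧ w • f ∈ O.H := by
  classical
  haveI := O.fin
  haveI : Module.Free W O.H := Module.free_of_finite_type_torsion_free'
  let r := Module.Free.chooseBasis W O.H
  have hmem : f ∈ Submodule.span Ω (Set.range fun k => ((r k : O.H) : G → Ω)) := by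
    have hle : (O.H : Set (G → Ω)) ⊆
        Submodule.span Ω (Set.range fun k => ((r k : O.H) : G → Ω)) := by
      intro g hg
      have := congrArg (fun h : O.H => (h : G → Ω)) (r.sum_repr ⟨g, hg⟩)
      simp only [AddSubmonoidClass.coe_finsetSum, SetLike.val_smul] at this
      rw [← this]
      exact Submodule.sum_mem _ fun k _ => Submodule.smul_of_tower_mem _ _
        (Submodule.subset_span (Set.mem_range_self k))
    exact Submodule.span_le.mpr hle (by rw [O.span_eq_top]; exact Submodule.mem_top)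
  obtain ⟨c, hc⟩ := (Submodule.mem_span_range_iff_exists_fun Ω).mp hmem
  have hfix : ∀ k, ∀ i, σ i (c k) = c k := by
    intro k i
    have hz : ∀ m, ∑ l, (σ i (c l) - c l) * ((r l : O.H) : G → Ω) m = 0 := by
      intro m
      have hm : ∀ m, f m = ∑ l, c l * ((r l : O.H) : G → Ω) m := fun m => by
        rw [← hc]; simp [Finset.sum_apply]
      have h1 := congrArg (σ i) (hm ((act i).symm m))
      rw [← hf, Equiv.apply_symm_apply, map_sum] at h1
      simp only [map_mul, ← O.equivariant _ (r _).2, Equiv.apply_symm_apply] at h1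
      simp only [sub_mul, Finset.sum_sub_distrib, ← h1, ← hm, sub_self]
    exact sub_eq_zero.mp (O.eq_zero_of_sum_eq_zero Finset.univ r r.linearIndependent _ hz k
      (Finset.mem_univ k))
  obtain ⟨w, hw, hwc⟩ := O.exists_smul_mem Finset.univ c fun k _ => hfix k
  refine ⟨w, hw, ?_⟩
  have : w • f = ∑ k, ((⟨_, hwc k (Finset.mem_univ k)⟩ : W) • r k : O.H) := by
    funext m
    rw [← hc]
    simp [Finset.sum_apply, Subring.smul_def, Finset.mul_sum, mul_assoc]
  rw [this]
  exact SetLike.coe_mem _

variable [Fact p.Prime]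

include O in
/-- **Collapse**: there is no invariant surjection onto a group of order `p`. -/
theorem eq_zero_of_invariant [IsPrincipalIdealRing W] (hp3 : 3 ≤ p) (hp0 : (p : W) ≠ 0)
    (hpu : ¬ IsUnit (p : W)) (π : G →+ ZMod p) (hπ : ∀ i m, π (act i m) = π m) : π = 0 := by
  classical
  by_contra hne
  haveI := O.fin
  haveI : Module.Free W O.H := Module.free_of_finite_type_torsion_free'
  -- surjectivity
  obtain ⟨g₀, hg₀⟩ : ∃ g, π g ≠ 0 := not_forall.mp fun h => hne (AddMonoidHom.ext h)
  have hsurj : ∀ a, ∃ g, π g = a := fun a =>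
    ⟨(a * (π g₀)⁻¹).val • g₀, by
      rw [map_nsmul, nsmul_eq_mul, ZMod.natCast_zmod_val, inv_mul_cancel_right₀ hg₀]⟩
  choose sec hsec using hsurj
  -- the functions on the quotient
  let T : (ZMod p → W) →ₗ[W] (G → Ω) :=
    { toFun := fun F m => (F (π m) : Ω)
      map_add' := fun _ _ => rfl
      map_smul' := fun _ _ => rfl }
  let HQ : Submodule W (ZMod p → W) := (Subalgebra.toSubmodule O.H).comap T
  -- the invariant part and a projection onto it
  let N : Submodule W O.H :=
    { carrier := {h | ∀ m m', π m = π m' → (h : G → Ω) m = (h : G → Ω) m'}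
      add_mem' := fun ha hb m m' e => congrArg₂ (· + ·) (ha m m' e) (hb m m' e)
      zero_mem' := fun _ _ _ => rfl
      smul_mem' := fun w a ha m m' e => congrArg (fun t => w • t) (ha m m' e) }
  haveI : Module.IsTorsionFree W (O.H ⧸ N) := by
    refine Module.IsTorsionFree.of_smul_eq_zero fun w q h => ?_
    induction q using Submodule.Quotient.induction_on with
    | _ a =>
      rw [← Submodule.Quotient.mk_smul, Submodule.Quotient.mk_eq_zero] at h
      by_cases hw : w = 0
      · exact Or.inl hw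
      · refine Or.inr ((Submodule.Quotient.mk_eq_zero N).mpr fun m m' e => ?_)
        exact mul_left_cancel₀ (fun h0 => hw (Subtype.ext h0)) (h m m' e)
  haveI : Module.Free W (O.H ⧸ N) := Module.free_of_finite_type_torsion_free'
  obtain ⟨s, hs⟩ := Module.projective_lifting_property N.mkQ LinearMap.id N.mkQ_surjective
  let P : O.H →ₗ[W] O.H := LinearMap.id - s.comp N.mkQ
  have hPN : ∀ h, P h ∈ N := fun h => by
    rw [← Submodule.Quotient.mk_eq_zero N]
    show N.mkQ (h - s (N.mkQ h)) = 0
    rw [map_sub, ← LinearMap.comp_apply N.mkQ s, hs, LinearMap.id_apply, sub_self]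
  have hPid : ∀ h ∈ N, P h = h := fun h hh => by
    show h - s (N.mkQ h) = h
    rw [Submodule.mkQ_apply, (Submodule.Quotient.mk_eq_zero N).mpr hh, map_zero, sub_zero]
  let r := Module.Free.chooseBasis W O.H
  have hli : LinearIndependent Ω fun k => ((r k : O.H) : G → Ω) := by
    rw [linearIndependent_iff']
    intro t c hc k hk
    exact O.eq_zero_of_sum_eq_zero t r r.linearIndependent c (fun m => by
      simpa [Finset.sum_apply] using congrFun hc m) k hk
  have hexp : ∀ h : O.H, (h : G → Ω) = ∑ k, r.repr h k • ((r k : O.H) : G → Ω) := fun h => by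
    conv_lhs => rw [← r.sum_repr h]
    rw [AddSubmonoidClass.coe_finsetSum]
    rfl
  have hsp : ⊤ ≤ Submodule.span Ω (Set.range fun k => ((r k : O.H) : G → Ω)) := by
    rw [← O.span_eq_top, Submodule.span_le]
    intro g hg
    rw [SetLike.mem_coe, show g = ((⟨g, hg⟩ : O.H) : G → Ω) from rfl, hexp]
    exact Submodule.sum_mem _ fun k _ => Submodule.smul_of_tower_mem _ _
      (Submodule.subset_span (Set.mem_range_self k))
  let B := Module.Basis.mk hli hsp
  let PΩ : (G → Ω) →ₗ[Ω] (G → Ω) := B.constr Ω fun k => (P (r k) : G → Ω)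
  have hPΩ : ∀ h : O.H, PΩ (h : G → Ω) = (P h : G → Ω) := by
    intro h
    have hcoe : ∀ k, PΩ ((r k : O.H) : G → Ω) = (P (r k) : G → Ω) := fun k => by
      rw [show ((r k : O.H) : G → Ω) = B k from (Module.Basis.mk_apply hli hsp k).symm]
      exact B.constr_basis _ _ _
    conv_rhs => rw [← r.sum_repr h]
    rw [hexp h, map_sum, map_sum, AddSubmonoidClass.coe_finsetSum]
    refine Finset.sum_congr rfl fun k _ => ?_
    rw [LinearMap.map_smul_of_tower, map_smul, SetLike.val_smul, hcoe]
  -- indicators of the fibres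
  let e : ZMod p → G → Ω := fun a m => if π m = a then 1 else 0
  have heq : ∀ a i m, e a (act i m) = σ i (e a m) := fun a i m => by
    simp only [e, hπ]
    split_ifs
    · rw [map_one]
    · rw [map_zero]
  have hefix : ∀ a, PΩ (e a) = e a := by
    intro a
    obtain ⟨w, hw, hwe⟩ := O.exists_smul_mem_H (heq a)
    have hN : (⟨_, hwe⟩ : O.H) ∈ N := fun m m' hmm => by
      simp only [Pi.smul_apply, e, hmm]
    have h1 := hPΩ ⟨_, hwe⟩
    rw [hPid _ hN] at h1
    simp only [LinearMap.map_smul_of_tower] at h1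
    funext m
    have h2 := congrFun h1 m
    simp only [Pi.smul_apply, Subring.smul_def, smul_eq_mul] at h2
    exact mul_left_cancel₀ (fun h0 => hw (Subtype.ext h0)) h2
  have hfix : ∀ f : G → Ω, (∀ m m', π m = π m' → f m = f m') → PΩ f = f := by
    intro f hf
    have hf' : f = ∑ a, f (sec a) • e a := by
      funext m
      rw [Finset.sum_apply, Finset.sum_eq_single (π m)]
      · simp only [Pi.smul_apply, e, if_pos, smul_eq_mul, mul_one]
        exact hf _ _ (hsec _).symm
      · intro b _ hb
        simp [e, Ne.symm hb]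
      · exact fun h => absurd (Finset.mem_univ _) h
    rw [hf', map_sum]
    simp only [map_smul, hefix]
  -- values on the quotient
  have hval : ∀ h : O.H, h ∈ N → ∃ F ∈ HQ, ∀ m, (h : G → Ω) m = (F (π m) : Ω) := by
    intro h hh
    have hW : ∀ a, (h : G → Ω) (sec a) ∈ W := fun a => O.integral _ h.2 _ fun i => by
      rw [← O.equivariant _ h.2]
      exact hh _ _ (hπ i _)
    refine ⟨fun a => ⟨_, hW a⟩, ?_, fun m => hh _ _ (hsec _).symm⟩
    show T _ ∈ O.H
    convert h.2 using 1
    funext m
    exact hh _ _ (hsec _)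
  have hT : IsTranslationClosed HQ := by
    intro F hF
    obtain ⟨κ, _, a, b, ha, hb, hab⟩ := O.comul _ hF
    choose U hU hUe using fun k => hval _ (hPN ⟨a k, ha k⟩)
    choose V hV hVe using fun k => hval _ (hPN ⟨b k, hb k⟩)
    refine ⟨κ, inferInstance, U, V, hU, hV, fun x y => Subtype.ext ?_⟩
    have h1 : ∀ u v, T F (u + v) = ∑ k, (P ⟨a k, ha k⟩ : G → Ω) u * b k v := by
      intro u v
      have e1 : (fun m => T F (m + v)) = ∑ k, b k v • a k := by
        funext m; simp [hab, Finset.sum_apply, mul_comm]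
      have e2 := congrArg PΩ e1
      rw [hfix _ fun m m' hmm => by simp [T, map_add, hmm], map_sum] at e2
      have e3 := congrFun e2 u
      simp only [Finset.sum_apply] at e3
      rw [e3]
      refine Finset.sum_congr rfl fun k _ => ?_
      rw [map_smul, Pi.smul_apply, smul_eq_mul, hPΩ ⟨a k, ha k⟩, mul_comm]
    have h2 : T F (sec x + sec y) =
        ∑ k, (P ⟨a k, ha k⟩ : G → Ω) (sec x) * (P ⟨b k, hb k⟩ : G → Ω) (sec y) := by
      have e1 : (fun m => T F (sec x + m)) = ∑ k, (P ⟨a k, ha k⟩ : G → Ω) (sec x) • b k := by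
        funext m; simp [h1, Finset.sum_apply]
      have e2 := congrArg PΩ e1
      rw [hfix _ fun m m' hmm => by simp [T, map_add, hmm], map_sum] at e2
      have e3 := congrFun e2 (sec y)
      simp only [Finset.sum_apply] at e3
      rw [e3]
      refine Finset.sum_congr rfl fun k _ => ?_
      rw [map_smul, Pi.smul_apply, smul_eq_mul, hPΩ ⟨b k, hb k⟩]
    simpa [T, map_add, hsec, hUe, hVe] using h2
  have hcong : ∀ F ∈ HQ, ∀ x, (p : W) ∣ F x - F 0 := fun F hF x =>
    O.congr _ hF (sec x) _ _ (by simp [T, hsec]) (by simp [T])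
  -- the indicator of the origin is not constant
  obtain ⟨w, hw, hwe⟩ := O.exists_smul_mem_H (heq 0)
  let F₀ : ZMod p → W := fun a => if a = 0 then w else 0
  have hF₀ : F₀ ∈ HQ := by
    show T F₀ ∈ O.H
    convert hwe using 1
    funext m
    simp only [T, F₀, e, LinearMap.coe_mk, AddHom.coe_mk, Pi.smul_apply, Subring.smul_def,
      smul_eq_mul]
    split_ifs <;> simp
  have hdiv : ∀ n, (p : W) ^ n ∣ w := fun n => by
    refine (pow_dvd_pow _ (Nat.le_succ n)).trans ?_
    have := pow_dvd_sub hp3 hp0 hT hcong n F₀ hF₀ 1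
    simpa [F₀, dvd_neg] using this
  have hbot := Ideal.iInf_pow_eq_bot_of_isDomain (I := Ideal.span {(p : W)})
    (by rwa [Ne, Ideal.span_singleton_eq_top])
  refine hw ?_
  rw [← Submodule.mem_bot W, ← hbot]
  · rw [Submodule.mem_iInf]
    intro n
    rw [Ideal.span_singleton_pow, Ideal.mem_span_singleton]
    exact hdiv n

end CongruentAlgebra

end Fermat.Agent.OrdinaryAtP
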