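import Fermat.Agent.Arith.RootsOfUnity
import Fermat.Agent.FiniteFlat.FixedLift
import Fermat.Agent.Mazur.Eisenstein.Unram
import Mathlib.RingTheory.PrincipalIdealDomain
import Mathlib.RingTheory.IntegralClosure.IsIntegralClosure.Basic
import Mathlib.FieldTheory.IsAlgClosed.Basic

/-!
# The ring of integers fixed by inertia

For a place `A` over `p` the elements of `A` fixed by inertia form a principal ideal ring with
uniformiser `p` and the same residue field, in which simple roots lift. Equivariant functions on a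
finite set with values in `A` are integral over it.
-/

set_option autoImplicit false
set_option linter.style.haveILetI false

noncomputable section

namespace Fermat.Agent.OrdinaryAtP

open Polynomial
open Fermat.Agent.Arith Fermat.Agent.Mazur.Eisenstein
open scoped Pointwise

variable (A : ValuationSubring QBar)

/-- The elements of `A` fixed by inertia. -/
def fixRing : Subring QBar where
  carrier := {a | a ∈ A ∧ ∀ τ ∈ A.inertiaSubgroupIn ℚ, τ a = a}
  one_mem' := ⟨one_mem _, fun _ _ => map_one _⟩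
  mul_mem' ha hb := ⟨mul_mem ha.1 hb.1, fun τ hτ => by rw [map_mul, ha.2 τ hτ, hb.2 τ hτ]⟩
  zero_mem' := ⟨zero_mem _, fun _ _ => map_zero _⟩
  add_mem' ha hb := ⟨add_mem ha.1 hb.1, fun τ hτ => by rw [map_add, ha.2 τ hτ, hb.2 τ hτ]⟩
  neg_mem' ha := ⟨neg_mem ha.1, fun τ hτ => by rw [map_neg, ha.2 τ hτ]⟩

/-- The inclusion in `A`. -/
def fixToPlace : fixRing A →+* A where
  toFun w := ⟨w, w.2.1⟩
  map_one' := rfl
  map_mul' _ _ := rfl
  map_zero' := rfl
  map_add' _ _ := rfl

/-- The residue map. -/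
def resW : fixRing A →+* IsLocalRing.ResidueField A :=
  (IsLocalRing.residue A).comp (fixToPlace A)

variable {A}

theorem resW_apply (w : fixRing A) : resW A w = IsLocalRing.residue A ⟨w, w.2.1⟩ := rfl

theorem resW_eq_zero_iff {w : fixRing A} : resW A w = 0 ↔ (w : QBar) ∈ A.nonunits := by
  rw [resW_apply, IsLocalRing.residue_eq_zero_iff, ← ValuationSubring.coe_mem_nonunits_iff]

theorem fixed_apply (w : fixRing A) {τ : GQ} (hτ : τ ∈ A.inertiaSubgroupIn ℚ) :
    τ (w : QBar) = w := w.2.2 τ hτ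

variable {p : ℕ}

theorem natCast_fix_ne_zero (hp : p.Prime) : (p : fixRing A) ≠ 0 := by
  intro h
  have := congrArg (fun w : fixRing A => (w : QBar)) h
  simp only [ZeroMemClass.coe_zero] at this
  exact hp.ne_zero (by exact_mod_cast this)

theorem resW_natCast_self (hA : A.LiesOverPrime p) : resW A (p : fixRing A) = 0 := by
  rw [resW_eq_zero_iff]
  exact_mod_cast hA

theorem not_isUnit_natCast (hA : A.LiesOverPrime p) : ¬ IsUnit (p : fixRing A) := fun h =>
  (h.map (resW A)).ne_zero (resW_natCast_self hA)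

/-- A fixed element is a power of `p` times a unit of the fixed ring. -/
theorem exists_zpow_mul_unit (hA : A.LiesOverPrime p) (hp : p.Prime) {x : QBar} (hx : x ≠ 0)
    (hfix : ∀ τ ∈ A.inertiaSubgroupIn ℚ, τ x = x) :
    ∃ (k : ℤ) (u : (fixRing A)ˣ), x = (p : QBar) ^ k * ((u : fixRing A) : QBar) := by
  obtain ⟨k, hk⟩ := exists_int_ordAt hA hp hx hfix
  have hp0 : (p : QBar) ≠ 0 := by exact_mod_cast hp.ne_zero
  set u := x * (p : QBar) ^ (-k) with hu
  have hu0 : u ≠ 0 := mul_ne_zero hx (zpow_ne_zero _ hp0)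
  have hord : ordAt A p u = 0 := by
    rw [hu, ordAt_mul hA hp hx (zpow_ne_zero _ hp0), ordAt_prime_zpow hA hp, hk]
    push_cast
    ring
  obtain ⟨h1, h2⟩ := (isUnitAt_iff hu0).mp ((ordAt_eq_zero_iff hA hp hu0).mp hord)
  have hfu : ∀ τ ∈ A.inertiaSubgroupIn ℚ, τ u = u := fun τ hτ => by
    rw [hu, map_mul, map_zpow₀, map_natCast, hfix τ hτ]
  refine ⟨k, ⟨⟨u, h1, hfu⟩, ⟨u⁻¹, h2, fun τ hτ => by rw [map_inv₀, hfu τ hτ]⟩,
    Subtype.ext (mul_inv_cancel₀ hu0), Subtype.ext (inv_mul_cancel₀ hu0)⟩, ?_⟩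
  show x = (p : QBar) ^ k * u
  rw [hu, mul_left_comm, ← zpow_add₀ hp0, add_neg_cancel, zpow_zero, mul_one]

/-- A nonzero element of the fixed ring is a power of `p` times a unit. -/
theorem exists_pow_mul_unit (hA : A.LiesOverPrime p) (hp : p.Prime) {w : fixRing A} (hw : w ≠ 0) :
    ∃ (n : ℕ) (u : (fixRing A)ˣ), w = (p : fixRing A) ^ n * u := by
  obtain ⟨k, u, hk⟩ := exists_zpow_mul_unit hA hp (x := (w : QBar))
    (fun h => hw (Subtype.ext h)) fun τ hτ => fixed_apply w hτ
  rcases Int.eq_nat_or_neg k with ⟨n, rfl | rfl⟩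
  · exact ⟨n, u, Subtype.ext (by push_cast; rw [hk, zpow_natCast])⟩
  · refine ⟨0, u, ?_⟩
    rw [pow_zero, one_mul]
    rcases Nat.eq_zero_or_pos n with rfl | hn
    · exact Subtype.ext (by rw [hk]; simp)
    have hp0 : (p : QBar) ≠ 0 := by exact_mod_cast hp.ne_zero
    exfalso
    refine not_isUnit_natCast hA ((isUnit_pow_iff hn.ne').mp (IsUnit.of_mul_eq_one
      (w * ↑(u⁻¹)) (Subtype.ext ?_)))
    have h1 : ((u : fixRing A) : QBar) * ((↑(u⁻¹) : fixRing A) : QBar) = 1 := by
      rw [← Subring.coe_mul, Units.mul_inv, Subring.coe_one]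
    push_cast
    rw [hk, zpow_neg, zpow_natCast]
    field_simp
    linear_combination h1

theorem isPrincipalIdealRing_fixRing (hA : A.LiesOverPrime p) (hp : p.Prime) :
    IsPrincipalIdealRing (fixRing A) := by
  classical
  refine ⟨fun I => ?_⟩
  rcases eq_or_ne I ⊥ with rfl | hI
  · exact bot_isPrincipal
  obtain ⟨x, hxI, hx⟩ := Submodule.exists_mem_ne_zero_of_ne_bot hI
  have hex : ∃ n, (p : fixRing A) ^ n ∈ I := by
    obtain ⟨n, u, rfl⟩ := exists_pow_mul_unit hA hp hx
    exact ⟨n, by simpa using I.mul_mem_right (↑(u⁻¹) : fixRing A) hxI⟩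
  refine ⟨(p : fixRing A) ^ Nat.find hex, le_antisymm (fun y hy => ?_) ?_⟩
  · rcases eq_or_ne y 0 with rfl | hy0
    · exact zero_mem _
    obtain ⟨n, u, rfl⟩ := exists_pow_mul_unit hA hp hy0
    have hn : Nat.find hex ≤ n := Nat.find_le (by simpa using I.mul_mem_right (↑(u⁻¹) : fixRing A) hy)
    exact Ideal.mem_span_singleton.mpr (dvd_mul_of_dvd_left (pow_dvd_pow _ hn) _)
  · exact (Ideal.span_singleton_le_iff_mem I).mpr (Nat.find_spec hex)

/-- Fixed elements are fractions. -/
theorem exists_mul_mem_fixRing (hA : A.LiesOverPrime p) (hp : p.Prime) {x : QBar}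
    (hfix : ∀ τ ∈ A.inertiaSubgroupIn ℚ, τ x = x) :
    ∃ w : fixRing A, w ≠ 0 ∧ (w : QBar) * x ∈ fixRing A := by
  rcases eq_or_ne x 0 with rfl | hx
  · exact ⟨1, one_ne_zero, by rw [mul_zero]; exact zero_mem _⟩
  obtain ⟨k, u, rfl⟩ := exists_zpow_mul_unit hA hp hx hfix
  refine ⟨(p : fixRing A) ^ (-k).toNat, pow_ne_zero _ (natCast_fix_ne_zero hp), ?_⟩
  have hp0 : (p : QBar) ≠ 0 := by exact_mod_cast hp.ne_zero
  push_cast
  rw [← mul_assoc, ← zpow_natCast, ← zpow_add₀ hp0,
    show ((-k).toNat : ℤ) + k = (k.toNat : ℤ) by omega, zpow_natCast]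
  exact mul_mem (pow_mem (natCast_mem _ p) _) (u : fixRing A).2

/-- An element of the fixed ring with zero residue is divisible by `p`. -/
theorem natCast_dvd_of_resW_eq_zero (hA : A.LiesOverPrime p) (hp : p.Prime) {w : fixRing A}
    (hw : resW A w = 0) : (p : fixRing A) ∣ w := by
  rcases eq_or_ne w 0 with rfl | hw0
  · exact dvd_zero _
  obtain ⟨n, u, rfl⟩ := exists_pow_mul_unit hA hp hw0
  rcases n with _ | n
  · rw [pow_zero, one_mul] at hw
    exact absurd hw (u.isUnit.map (resW A)).ne_zero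
  · exact dvd_mul_of_dvd_left (dvd_pow_self _ n.succ_ne_zero) _

theorem isUnit_of_resW_ne_zero (hA : A.LiesOverPrime p) (hp : p.Prime) {w : fixRing A}
    (hw : resW A w ≠ 0) : IsUnit w := by
  obtain ⟨n, u, rfl⟩ := exists_pow_mul_unit hA hp
    (show w ≠ 0 from fun h => hw (by rw [h, map_zero]))
  rcases n with _ | n
  · rw [pow_zero, one_mul]; exact u.isUnit
  · exact absurd (by rw [map_mul, map_pow, resW_natCast_self hA, zero_pow n.succ_ne_zero,
      zero_mul]) hw

/-! ### Simple roots -/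

/-- A simple root mod the maximal ideal lifts to the fixed ring. -/
theorem exists_root_fixRing (Q : (fixRing A)[X]) (hQ : Q.Monic) {z : IsLocalRing.ResidueField A}
    (hz : (Q.map (resW A)).eval z = 0) (hz' : (derivative (Q.map (resW A))).eval z ≠ 0) :
    ∃ η : fixRing A, Q.eval η = 0 ∧ resW A η = z := by
  classical
  set QA : A[X] := Q.map (fixToPlace A) with hQA
  have hQAm : QA.Monic := hQ.map _
  set QB : QBar[X] := Q.map (fixRing A).subtype with hQB
  have hQBA : QA.map A.subtype = QB := by rw [hQA, Polynomial.map_map]; rfl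
  have hQBres : QA.map (IsLocalRing.residue A) = Q.map (resW A) := by
    rw [hQA, Polynomial.map_map]; rfl
  have hsplit : QB.Splits := IsAlgClosed.splits QB
  have hint : ∀ r ∈ QB.roots, r ∈ A := fun r hr => by
    have h1 : IsIntegral A r := ⟨QA, hQAm, by
      rw [show algebraMap A QBar = A.subtype from rfl, ← eval_map, hQBA]
      exact isRoot_of_mem_roots hr⟩
    obtain ⟨y, hy⟩ := (IsIntegrallyClosed.isIntegral_iff (R := A) (K := QBar)).mp h1
    exact hy ▸ y.2
  obtain ⟨rts, hrts⟩ : ∃ rts : Multiset A, rts.map A.subtype = QB.roots :=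
    ⟨QB.roots.attach.map fun r => (⟨r.1, hint r.1 r.2⟩ : A), by
      rw [Multiset.map_map]
      exact QB.roots.attach_map_val⟩
  have hfac : QA = (rts.map fun r => X - C r).prod := by
    refine map_injective A.subtype Subtype.val_injective ?_
    rw [hQBA, Polynomial.map_multiset_prod, Multiset.map_map]
    conv_lhs => rw [hsplit.eq_prod_roots_of_monic (hQ.map _), ← hrts]
    rw [Multiset.map_map]
    exact congrArg Multiset.prod (Multiset.map_congr rfl fun r _ => by simp)
  have hfacres : Q.map (resW A) =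
      ((rts.map (IsLocalRing.residue A)).map fun s => X - C s).prod := by
    rw [← hQBres, hfac]
    rw [Polynomial.map_multiset_prod, Multiset.map_map, Multiset.map_map]
    exact congrArg Multiset.prod (Multiset.map_congr rfl fun r _ => by simp)
  have hne : Q.map (resW A) ≠ 0 := (hQ.map _).ne_zero
  have hroots : (Q.map (resW A)).roots = rts.map (IsLocalRing.residue A) := by
    rw [hfacres, roots_multiset_prod_X_sub_C]
  have hzmem : z ∈ rts.map (IsLocalRing.residue A) := hroots ▸ (mem_roots hne).mpr hz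
  have hcount : (rts.map (IsLocalRing.residue A)).count z = 1 := by
    rw [← hroots, count_roots]
    refine le_antisymm ?_ ((rootMultiplicity_pos hne).mpr hz)
    by_contra hgt
    rw [not_le] at hgt
    exact hz' ((one_lt_rootMultiplicity_iff_isRoot hne).mp hgt).2
  obtain ⟨r, hr, hrz⟩ := Multiset.mem_map.mp hzmem
  have hrB : (r : QBar) ∈ QB.roots := hrts ▸ Multiset.mem_map.mpr ⟨r, hr, rfl⟩
  have hfix : ∀ τ ∈ A.inertiaSubgroupIn ℚ, τ (r : QBar) = r := by
    intro τ hτ
    obtain ⟨hτA, hτn⟩ := mem_inertia_iff_forall_mem.mp hτ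
    have hroot : IsRoot QB (τ (r : QBar)) := by
      have hB : QB.map (τ : QBar →+* QBar) = QB := Polynomial.ext fun i => by
        rw [coeff_map, hQB, coeff_map]
        exact fixed_apply (Q.coeff i) hτ
      have := (isRoot_of_mem_roots hrB).map (f := (τ : QBar →+* QBar))
      rwa [hB] at this
    have hmem : τ (r : QBar) ∈ QB.roots := (mem_roots (hQ.map _).ne_zero).mpr hroot
    rw [← hrts, Multiset.mem_map] at hmem
    obtain ⟨r', hr', hrr⟩ := hmem
    have hres : IsLocalRing.residue A r' = z := by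
      rw [← hrz]
      refine residue_eq_iff.mpr ?_
      rw [show (r' : QBar) = τ (r : QBar) from hrr]
      exact hτn r r.2
    by_contra hne'
    have hrne : r' ≠ r := fun h => hne' (by rw [← hrr, h]; rfl)
    have h2 : 2 ≤ (rts.map (IsLocalRing.residue A)).count z := by
      rw [Multiset.count_map]
      have hle : ({r, r'} : Multiset A) ≤ rts.filter fun a => z = IsLocalRing.residue A a := by
        refine (Multiset.le_iff_subset (by simpa using hrne.symm)).mpr fun a ha => ?_
        rcases Multiset.mem_cons.mp ha with rfl | ha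
        · exact Multiset.mem_filter.mpr ⟨hr, hrz.symm⟩
        · rw [Multiset.mem_singleton] at ha
          subst ha
          exact Multiset.mem_filter.mpr ⟨hr', hres.symm⟩
      simpa using Multiset.card_le_card hle
    omega
  refine ⟨⟨r, r.2, hfix⟩, Subtype.ext ?_, hrz⟩
  rw [ZeroMemClass.coe_zero, show ((Q.eval ⟨(r : QBar), r.2, hfix⟩ : fixRing A) : QBar) =
    (fixRing A).subtype (Q.eval ⟨(r : QBar), r.2, hfix⟩) from rfl, ← eval₂_at_apply, ← eval_map]
  exact isRoot_of_mem_roots hrB

/-- The fixed ring has the full residue field. -/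
theorem resW_surjective (hA : A.LiesOverPrime p) (hp : p.Prime) :
    Function.Surjective (resW A) := fun z =>
  let ⟨a, ha, hfix⟩ := FiniteFlat.exists_fixed_lift hA hp z
  ⟨⟨a, a.2, hfix⟩, ha⟩

end Fermat.Agent.OrdinaryAtP

end
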