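import Fermat.Agent.OrdinaryAtP.Levels
import Mathlib.RingTheory.LocalRing.Module
import Mathlib.RingTheory.Filtration
import Mathlib.LinearAlgebra.Projection

/-!
# Ordinarity at `p` from the absence of invariant homomorphisms on the levels of the model
-/

set_option autoImplicit false

noncomputable section

open Module IsLocalRing
open scoped MonoidAlgebra
open Fermat.Agent.GaloisReps

namespace Fermat.Agent.OrdinaryAtP

variable {T : Type} [CommRing T] [IsLocalRing T]

theorem natCast_zmod_eq_one {p : ℕ} [Fact p.Prime] (hpT : (p : T) ∈ IsLocalRing.maximalIdeal T)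
    {a : ℕ} (h : (a : T) - 1 ∈ IsLocalRing.maximalIdeal T) : (a : ZMod p) = 1 := by
  by_contra hne
  have hu : IsUnit ((a : ZMod p) - 1) := isUnit_iff_ne_zero.mpr (sub_ne_zero.mpr hne)
  obtain ⟨b, hb⟩ := ZMod.natCast_zmod_surjective (↑hu.unit⁻¹ : ZMod p)
  have h1 : (((a : ℤ) - 1) * b - 1 : ℤ) ∈ Ideal.span {(p : ℤ)} := by
    rw [Ideal.mem_span_singleton, ← ZMod.intCast_zmod_eq_zero_iff_dvd]
    push_cast
    rw [hb, IsUnit.mul_val_inv hu, sub_self]
  obtain ⟨c, hc⟩ := Ideal.mem_span_singleton.mp h1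
  have h2 := congrArg (Int.castRingHom T) hc
  simp only [map_sub, map_mul, map_one, map_natCast] at h2
  refine (IsLocalRing.maximalIdeal.isMaximal T).ne_top ((Ideal.eq_top_iff_one _).mpr ?_)
  have h3 := (IsLocalRing.maximalIdeal T).sub_mem
    ((IsLocalRing.maximalIdeal T).mul_mem_right ((b : ℕ) : T) h)
    ((IsLocalRing.maximalIdeal T).mul_mem_right (Int.castRingHom T c) hpT)
  rwa [← h2, sub_sub_cancel] at h3

/-- A linear idempotent different from `0` and `1` of a free module of rank two cuts out a line. -/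
theorem exists_basis_range_eq {V : Type} [AddCommGroup V] [Module T V] [Module.Free T V]
    [Module.Finite T V] (hV : finrank T V = 2) {e : Module.End T V} (he : IsIdempotentElem e)
    (h0 : e ≠ 0) (h1 : e ≠ 1) :
    ∃ b : Basis (Fin 2) T V, LinearMap.range e = T ∙ b 0 := by
  have hc := LinearMap.IsIdempotentElem.isCompl he
  have hKfin : Module.Finite T (LinearMap.ker e) :=
    Module.Finite.of_surjective _ (Submodule.projectionOnto_surjective hc.symm)
  have hLfin : Module.Finite T (LinearMap.range e) :=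
    Module.Finite.of_surjective _ (Submodule.projectionOnto_surjective hc)
  have hKproj : Module.Projective T (LinearMap.ker e) :=
    Module.Projective.of_split (LinearMap.ker e).subtype (Submodule.projectionOnto _ _ hc.symm)
      (LinearMap.ext fun x => Submodule.projectionOnto_apply_left hc.symm x)
  have hLproj : Module.Projective T (LinearMap.range e) :=
    Module.Projective.of_split (LinearMap.range e).subtype (Submodule.projectionOnto _ _ hc)
      (LinearMap.ext fun x => Submodule.projectionOnto_apply_left hc x)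
  have : Module.Free T (LinearMap.ker e) := Module.free_of_flat_of_isLocalRing
  have : Module.Free T (LinearMap.range e) := Module.free_of_flat_of_isLocalRing
  let ψ := Submodule.prodEquivOfIsCompl _ _ hc
  have hsum : finrank T (LinearMap.range e) + finrank T (LinearMap.ker e) = 2 := by
    rw [← Module.finrank_prod, ψ.finrank_eq, hV]
  have hL0 : finrank T (LinearMap.range e) ≠ 0 := fun h => h0 (by
    have : Subsingleton (LinearMap.range e) :=
      (Module.finBasisOfFinrankEq T _ h).repr.toEquiv.subsingleton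
    exact LinearMap.ext fun v => congrArg Subtype.val
      (Subsingleton.elim (⟨e v, v, rfl⟩ : LinearMap.range e) 0))
  have hK0 : finrank T (LinearMap.ker e) ≠ 0 := fun h => h1 (by
    have : Subsingleton (LinearMap.ker e) :=
      (Module.finBasisOfFinrankEq T _ h).repr.toEquiv.subsingleton
    refine LinearMap.ext fun v => ?_
    have hv : v - e v ∈ LinearMap.ker e := by
      rw [LinearMap.mem_ker, map_sub, ← Module.End.mul_apply, he.eq, sub_self]
    have := congrArg Subtype.val (Subsingleton.elim (⟨_, hv⟩ : LinearMap.ker e) 0)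
    exact (sub_eq_zero.mp this).symm)
  let bL := Module.finBasisOfFinrankEq T (LinearMap.range e) (n := 1) (by omega)
  let bK := Module.finBasisOfFinrankEq T (LinearMap.ker e) (n := 1) (by omega)
  let b := ((bL.prod bK).map ψ).reindex finSumFinEquiv
  refine ⟨b, ?_⟩
  have hb0 : b 0 = (bL 0 : V) := by
    simp only [b, Basis.reindex_apply, Basis.map_apply]
    rw [show (0 : Fin (1 + 1)) = Fin.castAdd 1 (0 : Fin 1) from rfl,
      finSumFinEquiv_symm_apply_castAdd]
    simp [ψ, Basis.prod_apply]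
  rw [hb0]
  have hsp := congrArg (Submodule.map (LinearMap.range e).subtype) bL.span_eq
  rw [Submodule.map_span, Submodule.map_subtype_top, ← Set.range_comp, Set.range_unique] at hsp
  exact hsp.symm

variable [IsNoetherianRing T] {p : ℕ} [Fact p.Prime] {N : ℕ} [NeZero N] {S : Finset ℕ}

/-- Ordinarity at `p` of a residually ordinary representation matched by the model, when the
levels of the model have no invariant homomorphisms to `ℤ/p`. -/
theorem isOrdinaryAt_of_noHom (D : HeckeGaloisModel N p) (ρ : GaloisRepAdic T)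
    (habs : ρ.residual.IsAbsolutelyIrreducible) (hp2 : p ≠ 2)
    (hpT : (p : T) ∈ IsLocalRing.maximalIdeal T)
    (π : CuspForm.heckeAlgebra N 2 (↑S : Set ℕ) →+* T) (hfrob : FrobCharpoly ρ π)
    (hres : (GaloisRepAdic.ofResidualGaloisRep ρ.residual).IsOrdinaryAt p)
    (hG : ∀ P : ValuationSubring (AlgebraicClosure ℚ), P.LiesOverPrime p → LevelNoHom D P) :
    ρ.IsOrdinaryAt p := by
  classical
  intro P hP
  set m := IsLocalRing.maximalIdeal T
  obtain ⟨c, hc⟩ := IsCyclic.exists_generator (α := (ZMod p)ˣ)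
  obtain ⟨t₀, ht₀, rfl⟩ := EC.Rep.exists_mem_inertia_cyclotomicHom_eq hP c
  have hgen : ∀ g, ∃ i : ℕ, Arith.cyclotomicHom p g = Arith.cyclotomicHom p t₀ ^ i := fun g => by
    obtain ⟨i, hi⟩ := Submonoid.mem_powers_iff _ _ |>.mp
      (mem_powers_iff_mem_zpowers.mpr (hc (Arith.cyclotomicHom p g)))
    exact ⟨i, hi.symm⟩
  have hne : Arith.cyclotomicHom p t₀ ≠ 1 := fun h => by
    obtain ⟨i, hi⟩ := Subgroup.mem_zpowers_iff.mp (hc (-1))
    rw [h, one_zpow] at hi
    have : Fact (2 < p) := ⟨lt_of_le_of_ne (Fact.out : p.Prime).two_le hp2.symm⟩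
    exact ZMod.neg_one_ne_one (congrArg Units.val hi).symm
  have hord : ∀ t ∈ P.inertiaSubgroupIn ℚ,
      LinearMap.trace T ρ.V (ρ.ρ t) - LinearMap.det (ρ.ρ t) - 1 ∈ m :=
    fun t ht => trace_sub_det_sub_one_mem ρ hres hP ht
  obtain ⟨M₁, hann⟩ := exists_annihilator D ρ habs hp2 hpT π hfrob P hord (hG P hP) ht₀ hgen hne
  obtain ⟨k, hdet⟩ := exists_det_congr D ρ hp2 hpT π hfrob
  choose M₀ hM₀ using relations_transfer_of D ρ habs hpT π hfrob
  set d := LinearMap.det (ρ.ρ t₀)
  -- matching at a high level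
  have hlevel : ∀ n, ∃ a : ℕ, d - (a : T) ∈ m ^ n ∧ (0 < n → (a : ZMod p) ≠ 1) ∧
      ∀ t ∈ P.inertiaSubgroupIn ℚ, ∀ v,
        repAlg ρ (ordElem t₀ a t) v ∈ m ^ n • (⊤ : Submodule T ρ.V) := by
    intro n
    set M := max (max M₁ (M₀ n)) (n + k + 1)
    have : NeZero (p ^ M) := ⟨pow_ne_zero _ (Fact.out : p.Prime).ne_zero⟩
    obtain ⟨ζ, hζ⟩ := exists_primitiveRoot (p ^ M)
    have hza := (hζ.autToPow_spec ℚ t₀).symm
    set a := (hζ.autToPow ℚ t₀ : ZMod (p ^ M)).val
    refine ⟨a, hdet n M ζ t₀ a (by omega) hζ hza, fun _ h => hne (Units.ext ?_), fun t ht v => ?_⟩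
    · rw [cyclotomicHom_eq_natCast (by omega) hζ hza, h, Units.val_one]
    · exact hM₀ n M (by omega) _ (hann M ζ a (by omega) hζ hza t ht) v
  -- the quadratic identity
  have hkey : ∀ t ∈ P.inertiaSubgroupIn ℚ, ∀ v, ρ.ρ t₀ (ρ.ρ t v - v) = d • (ρ.ρ t v - v) := by
    intro t ht v
    refine sub_eq_zero.mp ((Submodule.mem_bot T).mp ?_)
    rw [← Ideal.iInf_pow_smul_eq_bot_of_isLocalRing m
      (IsLocalRing.maximalIdeal.isMaximal T).ne_top (M := ρ.V), Submodule.mem_iInf]
    intro n
    obtain ⟨a, ha, -, hrel⟩ := hlevel n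
    have h := hrel t ht v
    simp only [ordElem, map_mul, map_sub, map_one, map_natCast, repAlg_single, one_smul,
      Module.End.mul_apply, LinearMap.sub_apply, Module.End.one_apply,
      Module.End.natCast_apply] at h
    rw [← Nat.cast_smul_eq_nsmul T] at h
    have h2 := Submodule.add_mem _ h (Submodule.smul_mem_smul (Ideal.neg_mem_iff _ |>.mpr ha)
      (Submodule.mem_top (x := ρ.ρ t v - v)))
    convert h2 using 1
    rw [neg_smul, sub_smul, map_sub]
    simp only [← Nat.cast_smul_eq_nsmul T, smul_sub]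
    abel
  have hd1 : IsUnit (d - 1) := by
    by_contra h
    have h1 := (IsLocalRing.mem_maximalIdeal _).mpr h
    obtain ⟨a, ha, hane, -⟩ := hlevel 1
    rw [pow_one] at ha
    refine hane one_pos (natCast_zmod_eq_one hpT ?_)
    have := m.sub_mem h1 ha
    rwa [sub_sub_sub_cancel_left] at this
  set u : T := ↑hd1.unit⁻¹
  have hu : u * (d - 1) = 1 := hd1.val_inv_mul
  set e : Module.End T ρ.V := u • (ρ.ρ t₀ - 1) with he
  have heL : ∀ w, ρ.ρ t₀ w = d • w → e w = w := fun w hw => by
    rw [he, LinearMap.smul_apply, LinearMap.sub_apply, Module.End.one_apply, hw]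
    nth_rewrite 2 [← one_smul T w]
    rw [← sub_smul, smul_smul, hu, one_smul]
  have hrange : ∀ v, ρ.ρ t₀ (e v) = d • e v := fun v => by
    rw [he, LinearMap.smul_apply, LinearMap.sub_apply, Module.End.one_apply, map_smul,
      hkey t₀ ht₀ v, smul_comm]
  have hidem : IsIdempotentElem e := LinearMap.ext fun v => heL _ (hrange v)
  have he0 : e ≠ 0 := fun h => by
    have h1 : ρ.ρ t₀ = 1 := by
      refine LinearMap.ext fun v => sub_eq_zero.mp ?_
      have := LinearMap.congr_fun h v
      rw [he, LinearMap.smul_apply, LinearMap.sub_apply, LinearMap.zero_apply] at this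
      exact (hd1.unit⁻¹).isUnit.smul_eq_zero.mp this
    apply hd1.ne_zero
    show LinearMap.det (ρ.ρ t₀) - 1 = 0
    rw [h1, map_one, sub_self]
  have he1 : e ≠ 1 := fun h => by
    have h1 : ρ.ρ t₀ = d • 1 := LinearMap.ext fun v => by
      have := hrange v
      rw [h] at this
      simpa using this
    have h2 : d = d * d := by
      conv_lhs => rw [show d = LinearMap.det (ρ.ρ t₀) from rfl, h1]
      rw [LinearMap.det_smul, ρ.finrank_eq, map_one, mul_one, sq]
    have h3 : d * (d - 1) = 0 := by linear_combination (norm := ring1) -h2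
    have hdu : d = 0 := by
      have h4 := congrArg (fun x => x * u) h3
      simp only [mul_assoc, mul_comm (d - 1) u, hu, mul_one, zero_mul] at h4
      exact h4
    have hu0 : IsUnit d := (LinearMap.det.comp ρ.ρ).toHomUnits t₀ |>.isUnit
    exact hu0.ne_zero hdu
  obtain ⟨b, hb⟩ := exists_basis_range_eq ρ.finrank_eq hidem he0 he1
  have hI : ∀ t ∈ P.inertiaSubgroupIn ℚ, ∀ v, ρ.ρ t v - v ∈ LinearMap.range e :=
    fun t ht v => ⟨_, heL _ (hkey t ht v)⟩
  refine ⟨LinearMap.range e, ⟨b, hb⟩, fun σ hσ w hw => ?_, hI⟩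
  obtain ⟨v, rfl⟩ := hw
  have hconj : σ * t₀ * σ⁻¹ ∈ P.inertiaSubgroupIn ℚ := by
    have := (Arith.mem_inertia_smul_iff (g := σ) (A := P)).mpr ht₀
    rwa [(Arith.mem_decomposition_iff (A := P)).mp hσ] at this
  rw [he, LinearMap.smul_apply, map_smul]
  refine Submodule.smul_mem _ _ ?_
  have e2 : ρ.ρ σ ((ρ.ρ t₀ - 1) v) = ρ.ρ (σ * t₀ * σ⁻¹) (ρ.ρ σ v) - ρ.ρ σ v := by
    rw [LinearMap.sub_apply, Module.End.one_apply, map_sub, ← Module.End.mul_apply, ← map_mul,
      ← Module.End.mul_apply (ρ.ρ (σ * t₀ * σ⁻¹)), ← map_mul, inv_mul_cancel_right]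
  rw [e2]
  exact hI _ hconj _

end Fermat.Agent.OrdinaryAtP

end
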