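import Fermat.Agent.OrdinaryAtP.Conn.Main
import Fermat.Agent.OrdinaryAtP.Reduction

/-!
# Ordinarity at `p` exactly dividing the level, from the two geometric inputs
-/

set_option autoImplicit false
set_option linter.unusedSectionVars false

noncomputable section

namespace Fermat.Agent.OrdinaryAtP

open Fermat.Agent.GaloisReps

variable {N p : ℕ} [NeZero N] [Fact p.Prime] {S : Finset ℕ}
  {O : Type} [CommRing O] [IsDomain O] [IsDiscreteValuationRing O]
  [IsAdicComplete (IsLocalRing.maximalIdeal O) O]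
  {θ : CuspForm.heckeAlgebra N 2 (↑S : Set ℕ) →+* IsLocalRing.ResidueField O}
  {T : Type} [CommRing T] [IsLocalRing T] [IsNoetherianRing T]
  [IsAdicComplete (IsLocalRing.maximalIdeal T) T] [Algebra O T] [IsLocalHom (algebraMap O T)]
  [Module.Finite O T] [Module.Free O T]

/-- S33 from the congruences and the Galois orders. -/
theorem isOrdinaryAt_of_orders (hp2 : p ≠ 2)
    (hES : ∀ (N p : ℕ) [NeZero N] [Fact p.Prime], CongruenceProperty N p)
    (hOrd : ∀ (M : ℕ) [NeZero M], Mazur.Eisenstein.OrderProperty M)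
    (hN : p ∣ N ∧ ¬ p ^ 2 ∣ N)
    (hpO : (p : O) ∈ IsLocalRing.maximalIdeal O)
    (H : CuspForm.HeckeGaloisRepDatum N (↑S : Set ℕ) O θ T)
    (hres : (GaloisRepAdic.ofResidualGaloisRep H.ρ.residual).IsOrdinaryAt p) :
    H.ρ.IsOrdinaryAt p :=
  isOrdinaryAt_of_four_mul hp2 hES (fun A M _ hA _ hpM =>
    haveI : NeZero M := ⟨fun h => NeZero.ne (p * M) (by rw [h, mul_zero])⟩
    Conn.noTrivialQuotient hA hp2 hpM (hOrd M)) hN hpO H hres

end Fermat.Agent.OrdinaryAtP

end
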