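import Fermat.Agent.OrdinaryAtP.FixedFree
import Fermat.Agent.OrdinaryAtP.Residual
import Fermat.Agent.GaloisReps.Flat
import Fermat.Agent.Mazur.Eisenstein.Idempotent
import Fermat.Agent.EC.Rep.Cyclotomic

/-!
# The ordinary part of the levels of the model

Let `Y` be the part of the model modulo `p ^ M` belonging to a residually irreducible and ordinary
system and `Γ` the subgroup spanned by `(t - 1) Y`, `t` in inertia. If no stable subgroup of
`Γ[p]` has an invariant homomorphism to `ℤ/p`, then `t₀ - 1` is injective on `Γ`, so the Galois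
stable image `(s₀ - 1 - a) Y ⊆ Γ` vanishes by irreducibility, and `t₀ = a` on `Γ`: the element
`(t₀ - a)(t - 1)` annihilates `Y`.
-/

set_option autoImplicit false

noncomputable section

open IsLocalRing
open scoped MonoidAlgebra
open Fermat.Agent.GaloisReps

namespace Fermat.Agent.OrdinaryAtP

variable {p : ℕ} [Fact p.Prime] {N : ℕ} [NeZero N] {S : Finset ℕ}
  {T : Type} [CommRing T] [IsLocalRing T]

/-- Matrices acting on the model modulo `p ^ M`. -/
def levelEnd (D : HeckeGaloisModel N p) (M : ℕ) :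
    Matrix (Fin D.d) (Fin D.d) (ZMod (p ^ M)) →+* AddMonoid.End (ModelLevel D M) where
  toFun A :=
    { toFun := fun x => A.mulVec (x : Fin D.d → ZMod (p ^ M))
      map_zero' := Matrix.mulVec_zero A
      map_add' := Matrix.mulVec_add A }
  map_one' := AddMonoidHom.ext fun x => Matrix.one_mulVec (x : Fin D.d → ZMod (p ^ M))
  map_mul' A B := AddMonoidHom.ext fun x =>
    (Matrix.mulVec_mulVec (x : Fin D.d → ZMod (p ^ M)) A B).symm
  map_zero' := AddMonoidHom.ext fun x => Matrix.zero_mulVec (x : Fin D.d → ZMod (p ^ M))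
  map_add' A B := AddMonoidHom.ext fun x => Matrix.add_mulVec A B (x : Fin D.d → ZMod (p ^ M))

lemma levelEnd_injective (D : HeckeGaloisModel N p) (M : ℕ) :
    Function.Injective (levelEnd D M) := fun _A _B h =>
  Matrix.toLin'.injective (LinearMap.ext fun v =>
    DFunLike.congr_fun h (v : ModelLevel D M))

/-- The mod `p` reduction of the cyclotomic character at level `M`. -/
theorem cyclotomicHom_eq_natCast {M : ℕ} (hM : 0 < M) {ζ : AlgebraicClosure ℚ}
    (hζ : IsPrimitiveRoot ζ (p ^ M)) {g : AbsGal} {a : ℕ} (ha : g ζ = ζ ^ a) :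
    (Arith.cyclotomicHom p g : ZMod p) = (a : ZMod p) := by
  have : NeZero (p ^ M) := ⟨pow_ne_zero _ (Fact.out : p.Prime).ne_zero⟩
  refine Arith.cyclotomicHom_eq_of_forall fun t ht => ?_
  obtain ⟨i, -, rfl⟩ := hζ.eq_pow_of_pow_eq_one (ξ := t) (by
    rw [show p ^ M = p * p ^ (M - 1) by rw [← pow_succ', Nat.sub_add_cancel hM], pow_mul, ht,
      one_pow])
  show g (ζ ^ i) = (ζ ^ i) ^ a
  rw [map_pow, ha, ← pow_mul, ← pow_mul, mul_comm]

/-- The element `(t₀ - a)(t - 1)` of the group ring. -/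
def ordElem (t₀ : AbsGal) (a : ℕ) (t : AbsGal) : ℤ[AbsGal] :=
  (MonoidAlgebra.single t₀ 1 - (a : ℤ[AbsGal])) * (MonoidAlgebra.single t 1 - 1)

/-- The hypothesis on the levels: no invariant homomorphisms to `ℤ/p`. -/
def LevelNoHom (D : HeckeGaloisModel N p) (P : ValuationSubring (AlgebraicClosure ℚ)) : Prop :=
  ∀ (M : ℕ) (H : AddSubgroup (ModelLevel D M)),
    (∀ t ∈ P.inertiaSubgroupIn ℚ, ∀ x ∈ H, t • x ∈ H) →
    H ≤ AddSubgroup.closure
      {y | ∃ t ∈ P.inertiaSubgroupIn ℚ, ∃ x : ModelLevel D M, y = t • x - x} →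
    (∀ x ∈ H, p • x = 0) →
    ∀ φ : H →+ ZMod p, (∀ t ∈ P.inertiaSubgroupIn ℚ, ∀ x y : H,
      (y : ModelLevel D M) = t • (x : ModelLevel D M) → φ y = φ x) → φ = 0

set_option maxHeartbeats 800000 in
/-- `(t₀ - a)(t - 1)` annihilates the part of the model belonging to the system. -/
theorem exists_annihilator (D : HeckeGaloisModel N p) (ρ : GaloisRepAdic T)
    (habs : ρ.residual.IsAbsolutelyIrreducible) (hp2 : p ≠ 2)
    (hpT : (p : T) ∈ IsLocalRing.maximalIdeal T)
    (π : CuspForm.heckeAlgebra N 2 (↑S : Set ℕ) →+* T) (hfrob : FrobCharpoly ρ π)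
    (P : ValuationSubring (AlgebraicClosure ℚ))
    (hord : ∀ t ∈ P.inertiaSubgroupIn ℚ,
      LinearMap.trace T ρ.V (ρ.ρ t) - LinearMap.det (ρ.ρ t) - 1 ∈ IsLocalRing.maximalIdeal T)
    (hG : LevelNoHom D P)
    {t₀ : AbsGal} (ht₀ : t₀ ∈ P.inertiaSubgroupIn ℚ)
    (hgen : ∀ g, ∃ i : ℕ, Arith.cyclotomicHom p g = Arith.cyclotomicHom p t₀ ^ i)
    (hne : Arith.cyclotomicHom p t₀ ≠ 1) :
    ∃ M₁ : ℕ, ∀ (M : ℕ) (ζ : AlgebraicClosure ℚ) (a : ℕ), M₁ ≤ M →
      IsPrimitiveRoot ζ (p ^ M) → t₀ ζ = ζ ^ a → ∀ t ∈ P.inertiaSubgroupIn ℚ,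
        ∃ u, IsUnit (π u) ∧ galAlg D M (ordElem t₀ a t) * heckeLevel D M u = 0 := by
  classical
  obtain ⟨k₁, hdet⟩ := exists_det_congr D ρ hp2 hpT π hfrob
  obtain ⟨k₂, hsat⟩ := exists_saturation_of D hpT π
  refine ⟨k₁ + k₂ + 1, fun M ζ a₀ hM hζ hza t ht => ?_⟩
  have : NeZero (p ^ M) := ⟨pow_ne_zero _ (Fact.out : p.Prime).ne_zero⟩
  set m := IsLocalRing.maximalIdeal T
  let I := P.inertiaSubgroupIn ℚ
  let χ : AbsGal →* (ZMod (p ^ M))ˣ := hζ.autToPow ℚ
  let c : AbsGal → ℕ := fun g => (χ g : ZMod (p ^ M)).val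
  have hc : ∀ g : AbsGal, g ζ = ζ ^ c g := fun g => (hζ.autToPow_spec ℚ g).symm
  have hker : ∀ v, heckeLevel D M v = 0 → π v ∈ m := fun v hv =>
    Ideal.pow_le_self (n := M - k₂) (by omega)
      (hsat (M - k₂) v (by rw [Nat.sub_add_cancel (by omega)]; exact hv))
  have hdet1 : ∀ (g : AbsGal) (a : ℕ), g ζ = ζ ^ a → LinearMap.det (ρ.ρ g) - (a : T) ∈ m := fun g a h => by
    simpa using hdet 1 M ζ g a (by omega) hζ h
  -- operators on the level
  let X := ModelLevel D M
  let E : CuspForm.heckeAlgebra N 2 (↑S : Set ℕ) →+* AddMonoid.End X :=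
    (levelEnd D M).comp (heckeLevel D M)
  have hEcomm : ∀ v (g : AbsGal) (x : X), E v (g • x) = g • E v x := fun v g x => by
    have := DFunLike.congr_fun (congrArg (levelEnd D M) (galLevel_mul_heckeLevel (S := S) D M g v)) x
    rw [map_mul, map_mul] at this
    exact this.symm
  choose s hs hsr using exists_heckeLevel_eq D ρ π hfrob hζ
  have hEs : ∀ g (x : X), E (s g) x = g • x + c g • (g⁻¹ • x) := fun g x => by
    have := DFunLike.congr_fun (congrArg (levelEnd D M) (hs g)) x
    rw [← ZMod.natCast_zmod_val (χ g : ZMod (p ^ M)), Nat.cast_smul_eq_nsmul, map_add,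
      map_nsmul] at this
    exact this
  -- the idempotent cutting out the system
  have hidem : ∀ v : CuspForm.heckeAlgebra N 2 (↑S : Set ℕ),
      ∃ k, 0 < k ∧ IsIdempotentElem (heckeLevel D M v ^ k) := fun v =>
    haveI : Finite (heckeLevel (S := S) D M).range := inferInstance
    Mazur.Eisenstein.exists_pow_isIdempotentElem _
  choose ex hex hidem using hidem
  let B : Set (Matrix (Fin D.d) (Fin D.d) (ZMod (p ^ M))) :=
    heckeLevel D M '' {v | π v ∈ m}
  have : Fintype B := Fintype.ofFinite B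
  choose pre hpre hpre' using fun b : B => b.2
  let u := ∏ b : B, (1 - pre b ^ ex (pre b))
  have hu : IsUnit (π u) := by
    rw [map_prod]
    refine IsUnit.prod_iff.mpr fun b _ => ?_
    by_contra h
    have h1 := (IsLocalRing.mem_maximalIdeal _).mpr h
    rw [map_sub, map_one, map_pow] at h1
    have := m.add_mem h1 (m.pow_mem_of_mem (hpre b) (ex (pre b)) (hex _))
    rw [sub_add_cancel] at this
    exact (IsLocalRing.maximalIdeal.isMaximal T).ne_top (m.eq_top_iff_one.mpr this)
  have hnil : ∀ v, π v ∈ m → ∃ k, 0 < k ∧ heckeLevel D M (v ^ k * u) = 0 := by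
    intro v hv
    obtain ⟨b, hb⟩ : ∃ b : B, (b : Matrix _ _ _) = heckeLevel D M v := ⟨⟨_, v, hv, rfl⟩, rfl⟩
    refine ⟨ex (pre b), hex _, ?_⟩
    rw [show u = (1 - pre b ^ ex (pre b)) * ∏ b' ∈ Finset.univ.erase b, (1 - pre b' ^ ex (pre b'))
      from (Finset.mul_prod_erase _ _ (Finset.mem_univ b)).symm, ← mul_assoc, map_mul]
    have h1 : heckeLevel D M (v ^ ex (pre b) * (1 - pre b ^ ex (pre b))) = 0 := by
      rw [map_mul, map_sub, map_one, map_pow, map_pow, ← hb, ← hpre' b, mul_sub, mul_one,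
        (hidem (pre b)).eq, sub_self]
    rw [h1, zero_mul]
  let Y : AddSubgroup X := (E u : X →+ X).range
  have hY : ∀ (g : AbsGal), ∀ y ∈ Y, g • y ∈ Y := by
    rintro g _ ⟨x, rfl⟩
    exact ⟨g • x, hEcomm u g x⟩
  have hYE : ∀ v, ∀ y ∈ Y, E v y ∈ Y := by
    rintro v _ ⟨x, rfl⟩
    refine ⟨E v x, ?_⟩
    show (E u * E v) x = (E v * E u) x
    rw [← map_mul, ← map_mul, mul_comm]
  have hYnil : ∀ v, π v ∈ m → ∃ k, 0 < k ∧ ∀ y ∈ Y, E (v ^ k) y = 0 := by
    intro v hv
    obtain ⟨k, hk, hkv⟩ := hnil v hv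
    refine ⟨k, hk, ?_⟩
    rintro _ ⟨x, rfl⟩
    show (E (v ^ k) * E u) x = 0
    rw [← map_mul]
    show levelEnd D M (heckeLevel D M (v ^ k * u)) x = 0
    rw [hkv, map_zero]
    rfl
  have hYinv : ∀ v, π v ∉ m → ∀ y ∈ Y, E v y = 0 → y = 0 := by
    intro v hv y hy hvy
    set w := 1 - v ^ ex v
    have hvw : π (v ^ ex v * w) ∈ m := hker _ (by
      rw [map_mul, map_sub, map_one, map_pow, mul_sub, mul_one, (hidem v).eq, sub_self])
    rw [map_mul, map_pow] at hvw
    have hwm : π w ∈ m := by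
      refine ((IsLocalRing.maximalIdeal.isMaximal T).isPrime.mem_or_mem hvw).resolve_left fun h => ?_
      exact hv ((IsLocalRing.maximalIdeal.isMaximal T).isPrime.mem_of_pow_mem _ h)
    obtain ⟨j, hj, hjw⟩ := hYnil w hwm
    have hid : IsIdempotentElem (E w) := by
      show E w * E w = E w
      rw [← map_mul]
      show levelEnd D M (heckeLevel D M (w * w)) = levelEnd D M (heckeLevel D M w)
      congr 1
      rw [map_mul, map_sub, map_one, map_pow]
      exact (hidem v).one_sub.eq
    have h1 : E w y = 0 := by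
      have := hjw y hy
      rwa [map_pow, ← Nat.sub_add_cancel hj, hid.pow_succ_eq] at this
    have h2 : E (v ^ ex v) y = 0 := by
      rw [show v ^ ex v = v ^ (ex v - 1) * v by rw [← pow_succ, Nat.sub_add_cancel (hex v)],
        map_mul]
      show E (v ^ (ex v - 1)) (E v y) = 0
      rw [hvy, map_zero]
    have h3 : y = E w y + E (v ^ ex v) y := by
      show y = (E w + E (v ^ ex v)) y
      rw [← map_add, sub_add_cancel, map_one]
      rfl
    rw [h3, h1, h2, add_zero]
  -- the subgroup spanned by `(t - 1) Y`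
  let Γ : AddSubgroup X := AddSubgroup.closure {y | ∃ g ∈ I, ∃ x ∈ Y, y = g • x - x}
  have hΓY : Γ ≤ Y := (AddSubgroup.closure_le _).mpr (by
    rintro _ ⟨g, _, x, hx, rfl⟩
    exact sub_mem (hY g x hx) hx)
  have hΓI : ∀ g ∈ I, ∀ z ∈ Γ, g • z ∈ Γ := by
    intro g hg z hz
    induction hz using AddSubgroup.closure_induction with
    | mem z hz =>
      obtain ⟨h, hh, x, hx, rfl⟩ := hz
      refine AddSubgroup.subset_closure ⟨g * h * g⁻¹, mul_mem (mul_mem hg hh) (inv_mem hg), g • x,
        hY g x hx, ?_⟩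
      rw [smul_sub, ← mul_smul, ← mul_smul, inv_mul_cancel_right]
    | zero => rw [smul_zero]; exact zero_mem _
    | add a b _ _ ha hb => rw [smul_add]; exact add_mem ha hb
    | neg a _ ha => rw [smul_neg]; exact neg_mem ha
  -- no fixed vectors
  have hinj0 : ∀ z ∈ Γ, p • z = 0 → t₀ • z = z → z = 0 := by
    intro z hz hpz hfix
    let Hp : AddSubgroup X :=
      { carrier := {x | x ∈ Γ ∧ p • x = 0}
        add_mem' := fun {a b} ha hb => ⟨add_mem ha.1 hb.1, by rw [nsmul_add, ha.2, hb.2, add_zero]⟩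
        zero_mem' := ⟨zero_mem _, nsmul_zero _⟩
        neg_mem' := fun {a} ha => ⟨neg_mem ha.1, by rw [neg_nsmul, ha.2, neg_zero]⟩ }
    refine eq_zero_of_smul_eq (p := p) ((Arith.cyclotomicHom p).comp I.subtype) ⟨t₀, ht₀⟩
      (fun g => hgen g) Hp (fun g x hx => ⟨hΓI g g.2 x hx.1, ?_⟩) (fun x hx => hx.2) ?_ ?_ z
      ⟨hz, hpz⟩ hfix
    · show p • ((g : AbsGal) • x) = 0
      rw [← smul_comm (g : AbsGal) p x, hx.2, smul_zero]
    · -- unipotence
      rintro ⟨g, hg⟩ hg1 x hx
      have hmod : ∀ y : X, p • y = 0 → c g • y = y := by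
        intro y hy
        have h1 : ((c g : ℕ) : ZMod p) = ((1 : ℕ) : ZMod p) := by
          rw [← cyclotomicHom_eq_natCast (by omega) hζ (hc g), Nat.cast_one]
          exact congrArg Units.val hg1
        have hq := Nat.mod_add_div (c g) p
        rw [(ZMod.natCast_eq_natCast_iff' _ _ _).mp h1, Nat.one_mod_eq_one.mpr
          (Fact.out : p.Prime).ne_one] at hq
        rw [← hq, add_nsmul, one_nsmul, mul_comm, mul_nsmul', hy, nsmul_zero, add_zero]
      have hv : π (s g - (1 + 1)) ∈ m := by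
        have h1 : (c g : T) - 1 ∈ m := by
          have h2 : ((c g : ℕ) : ZMod p) = ((1 : ℕ) : ZMod p) := by
            rw [← cyclotomicHom_eq_natCast (by omega) hζ (hc g), Nat.cast_one]
            exact congrArg Units.val hg1
          have hq := Nat.mod_add_div (c g) p
          rw [(ZMod.natCast_eq_natCast_iff' _ _ _).mp h2, Nat.one_mod_eq_one.mpr
            (Fact.out : p.Prime).ne_one] at hq
          rw [← hq, Nat.cast_add, Nat.cast_one, add_sub_cancel_left, Nat.cast_mul]
          exact m.mul_mem_right _ hpT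
        rw [map_sub, map_add, map_one]
        have h3 := m.add_mem (m.add_mem (hord g hg) (hdet1 g _ (hc g)))
          (m.sub_mem h1 (Ideal.pow_le_self (n := M) (by omega) (hsr g)))
        convert h3 using 1
        ring
      obtain ⟨j, -, hj⟩ := hYnil _ hv
      let δ : AddMonoid.End X := levelEnd D M (galLevel D M g) - 1
      have hstep : ∀ (i : ℕ) (y : X), y ∈ Hp →
          (δ ^ (2 * i)) y = E ((s g - (1 + 1)) ^ i) (g ^ i • y) := by
        intro i
        induction i with
        | zero => intro y _; simp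
        | succ i ih =>
          intro y hy
          have hy' : g • y ∈ Hp := ⟨hΓI g hg y hy.1, by
            rw [← smul_comm g p y, hy.2, smul_zero]⟩
          have h2 : (δ * δ) y = E (s g - (1 + 1)) (g • y) := by
            have e : E (s g - (1 + 1)) (g • y) = E (s g) (g • y) - (g • y + g • y) := by
              rw [map_sub, map_add, map_one]; rfl
            rw [e, hEs, inv_smul_smul, hmod y hy.2]
            show g • (g • y - y) - (g • y - y) = _
            rw [smul_sub]
            abel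
          have hy2 : (δ * δ) y ∈ Hp := by
            have hd : ∀ w ∈ Hp, δ w ∈ Hp := fun w hw => sub_mem
              (show g • w ∈ Hp from ⟨hΓI g hg w hw.1, by rw [← smul_comm g p w, hw.2, smul_zero]⟩) hw
            exact hd _ (hd y hy)
          rw [mul_add, pow_add, pow_two]
          show (δ ^ (2 * i)) ((δ * δ) y) = _
          rw [ih _ hy2, h2, ← hEcomm, pow_succ (s g - (1 + 1)), map_mul, ← mul_smul, ← pow_succ]
          rfl
      have h0 : ∀ i, 2 * j ≤ i → (δ ^ i) x = 0 := by
        intro i hi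
        rw [← Nat.sub_add_cancel hi, pow_add]
        show (δ ^ (i - 2 * j)) ((δ ^ (2 * j)) x) = 0
        rw [hstep j x hx, hj _ (hY _ x (hΓY hx.1)), map_zero]
      refine ⟨2 * j + 1, ?_⟩
      show g ^ (p ^ (2 * j + 1)) • x = x
      have hpow : ∀ i : ℕ, g ^ i • x = ((δ + 1) ^ i) x := fun i => by
        induction i with
        | zero => simp
        | succ i ih =>
          rw [pow_succ', mul_smul, ih, pow_succ']
          show g • _ = (δ + 1) (((δ + 1) ^ i) x)
          rw [sub_add_cancel]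
          rfl
      obtain ⟨r, hr⟩ := Commute.exists_add_pow_prime_pow_eq (Fact.out : p.Prime)
        (Commute.one_right δ) (2 * j + 1)
      rw [hpow, hr, one_pow, mul_one, mul_assoc]
      show (δ ^ p ^ (2 * j + 1)) x + x + ((p : AddMonoid.End X) * (δ * r)) x = x
      rw [Nat.cast_comm, h0 _ ((by omega : 2 * j ≤ 2 * j + 1).trans
        (Nat.lt_pow_self (Fact.out : p.Prime).one_lt).le), zero_add]
      show x + (δ * r) (p • x) = x
      rw [hx.2, map_zero, add_zero]
    · -- no invariant homomorphisms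
      intro H' hH' hst φ hφ
      refine hG M H' (fun g hg => hst ⟨g, hg⟩) (fun x hx => ?_) (fun x hx => (hH' hx).2) φ
        (fun g hg => hφ ⟨g, hg⟩)
      refine AddSubgroup.closure_mono ?_ (hH' hx).1
      rintro _ ⟨g, hg, y, -, rfl⟩
      exact ⟨g, hg, y, rfl⟩
  have hinj : ∀ z ∈ Γ, t₀ • z = z → z = 0 := by
    have hpow : ∀ (i : ℕ) (z : X), z ∈ Γ → t₀ • z = z → p ^ i • z = 0 → z = 0 := by
      intro i
      induction i with
      | zero => intro z _ _ h; simpa using h
      | succ i ih =>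
        intro z hz hfix h
        refine ih z hz hfix (hinj0 _ (nsmul_mem hz _) ?_ ?_)
        · rw [← mul_nsmul, ← pow_succ, h]
        · rw [smul_comm, hfix]
    intro z hz hfix
    refine hpow M z hz hfix ?_
    funext i
    show (p ^ M) • (z : Fin D.d → ZMod (p ^ M)) i = 0
    rw [nsmul_eq_mul, ZMod.natCast_self, zero_mul]
  -- the Galois stable part inside `Γ`
  have hquad : π (s t₀ - 1 - (a₀ : CuspForm.heckeAlgebra N 2 (↑S : Set ℕ))) ∈ m := by
    rw [map_sub, map_sub, map_one, map_natCast]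
    have h3 := m.sub_mem (m.add_mem (hord t₀ ht₀) (hdet1 t₀ a₀ hza))
      (Ideal.pow_le_self (n := M) (by omega) (hsr t₀))
    convert h3 using 1
    ring
  have ha₀ : ∀ y : X, c t₀ • y = a₀ • y := by
    intro y
    have h2 := (hc t₀).symm.trans hza
    have := (hζ.isOfFinOrder (NeZero.ne _)).pow_eq_pow_iff_modEq.mp h2
    rw [← hζ.eq_orderOf, ← ZMod.natCast_eq_natCast_iff] at this
    funext i
    show (c t₀) • (y : Fin D.d → ZMod (p ^ M)) i = a₀ • (y : Fin D.d → ZMod (p ^ M)) i
    rw [nsmul_eq_mul, nsmul_eq_mul, this]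
  set f := s t₀ - 1 - (a₀ : CuspForm.heckeAlgebra N 2 (↑S : Set ℕ))
  have hEf : ∀ y : X, E f y = (t₀ • y - y) + a₀ • (t₀⁻¹ • y - y) := by
    intro y
    rw [map_sub, map_sub, map_one, map_natCast]
    show E (s t₀) y - y - a₀ • y = _
    rw [hEs, ha₀, nsmul_sub]
    abel
  have hfΓ : ∀ y ∈ Y, E f y ∈ Γ := fun y hy => by
    rw [hEf y]
    refine add_mem ?_ (nsmul_mem ?_ _)
    · exact AddSubgroup.subset_closure ⟨t₀, ht₀, y, hy, rfl⟩
    · exact AddSubgroup.subset_closure ⟨t₀⁻¹, inv_mem ht₀, y, hy, rfl⟩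
  -- a vector of `Γ` fixed after multiplication
  have hscal : ∀ z ∈ Γ, E f z = 0 → t₀ • z = a₀ • z := by
    intro z hz h0
    rw [hEf] at h0
    refine sub_eq_zero.mp (hinj _ (sub_mem (hΓI _ ht₀ z hz) (nsmul_mem hz _)) ?_)
    have h1 := congrArg (fun w => t₀ • w) h0
    simp only [smul_add, smul_sub, smul_comm t₀ a₀, smul_inv_smul, smul_zero] at h1
    rw [smul_sub, smul_comm t₀ a₀, ← sub_eq_zero]
    rw [← h1]
    abel
  have hZ : ∀ y ∈ Y, E f y = 0 := by
    by_contra! hex0
    obtain ⟨y₀, hy₀, hne0⟩ := hex0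
    -- descend to a vector killed by the maximal ideal
    obtain ⟨z, ⟨⟨y, hy, rfl⟩, hzne, hzm⟩⟩ : ∃ z : X, (∃ y ∈ Y, E f y = z) ∧ z ≠ 0 ∧
        ∀ v, π v ∈ m → E v z = 0 := by
      by_contra! hall
      have hnext : ∀ z : X, (∃ y ∈ Y, E f y = z) → z ≠ 0 → ∃ z' : X, (∃ y ∈ Y, E f y = z') ∧
          z' ≠ 0 ∧ Set.range (fun v => E v z') ⊂ Set.range (fun v => E v z) := by
        intro z hzI hz0
        obtain ⟨v, hv, hvz⟩ := hall z hzI hz0
        refine ⟨E v z, ?_, hvz, ?_, ?_⟩
        · obtain ⟨y, hy, rfl⟩ := hzI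
          refine ⟨E v y, hYE v y hy, ?_⟩
          show (E f * E v) y = (E v * E f) y
          rw [← map_mul, ← map_mul, mul_comm]
        · rintro _ ⟨w, rfl⟩
          exact ⟨w * v, by show E (w * v) z = E w (E v z); rw [map_mul]; rfl⟩
        · intro hsub
          obtain ⟨w, hw⟩ := hsub ⟨1, rfl⟩
          simp only [map_one] at hw
          have hw' : E (w * v) z = z := by rw [map_mul]; exact hw
          obtain ⟨k, -, hk⟩ := hYnil (w * v) (by rw [map_mul]; exact m.mul_mem_left _ hv)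
          have hzY : z ∈ Y := by obtain ⟨y, hy, rfl⟩ := hzI; exact hYE f y hy
          have hiter : ∀ i, E ((w * v) ^ i) z = z := fun i => by
            induction i with
            | zero => rw [pow_zero, map_one]; rfl
            | succ i ih => rw [pow_succ, map_mul]; show E _ (E (w * v) z) = z; rw [hw', ih]
          exact hz0 ((hiter k).symm.trans (hk z hzY))
      have wf : WellFounded fun A B : Set X => A ⊂ B := wellFounded_lt
      have hno : ∀ A : Set X, ∀ z : X, Set.range (fun v => E v z) = A →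
          (∃ y ∈ Y, E f y = z) → z = 0 := fun A => by
        induction A using wf.induction with
        | _ A ih =>
          rintro z rfl hzI
          by_contra hz0
          obtain ⟨z', hzI', hz', hlt⟩ := hnext z hzI hz0
          exact hz' (ih _ hlt z' rfl hzI')
      exact hne0 (hno _ _ rfl ⟨y₀, hy₀, rfl⟩)
    -- `t₀` is scalar on the conjugates of `E f y`
    have hconj : ∀ g : AbsGal, t₀ • (g • E f y) = a₀ • (g • E f y) := fun g => by
      rw [← hEcomm]
      refine hscal _ (hfΓ _ (hY g y hy)) ?_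
      rw [hEcomm, hEcomm, hzm f hquad, smul_zero]
    have hK : IsUnit (LinearMap.trace T ρ.V (ρ.ρ t₀) ^ 2 - 4 * LinearMap.det (ρ.ρ t₀)) := by
      by_contra h
      have h4 := (IsLocalRing.mem_maximalIdeal _).mpr h
      set d := LinearMap.det (ρ.ρ t₀)
      set tr := LinearMap.trace T ρ.V (ρ.ρ t₀)
      have h5 : (d - 1) * (d - 1) ∈ m := by
        have := m.sub_mem h4 (m.mul_mem_left (tr + d + 1) (hord t₀ ht₀))
        convert this using 1
        ring
      have h6 : (d - 1 : T) ∈ m :=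
        ((IsLocalRing.maximalIdeal.isMaximal T).isPrime.mem_or_mem h5).elim id id
      have h7 : ((a₀ : ℕ) : T) - 1 ∈ m := by
        have := m.sub_mem h6 (hdet1 t₀ a₀ hza)
        convert this using 1
        ring
      have h8 : (((a₀ : ℕ) : ℤ) - 1 : ℤ) ∈ (IsLocalRing.maximalIdeal T).comap (Int.castRingHom T) := by
        simp only [Ideal.mem_comap, eq_intCast, Int.cast_sub, Int.cast_natCast, Int.cast_one]
        exact h7
      have hcomap : (IsLocalRing.maximalIdeal T).comap (Int.castRingHom T) =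
          Ideal.span {(p : ℤ)} := by
        refine ((Ideal.span_singleton_prime
          (Nat.cast_ne_zero.mpr (Fact.out : p.Prime).ne_zero)).mpr
          (Nat.prime_iff_prime_int.mp Fact.out)).isMaximal
          (by simp [(Fact.out : p.Prime).ne_zero]) |>.eq_of_le ?_ ?_ |>.symm
        · exact (Ideal.comap_ne_top _ (IsLocalRing.maximalIdeal.isMaximal T).ne_top)
        · rw [Ideal.span_singleton_le_iff_mem, Ideal.mem_comap, eq_intCast, Int.cast_natCast]
          exact hpT
      rw [hcomap, Ideal.mem_span_singleton, ← ZMod.intCast_zmod_eq_zero_iff_dvd] at h8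
      push_cast at h8
      rw [sub_eq_zero, ← cyclotomicHom_eq_natCast (by omega) hζ hza] at h8
      exact hne (Units.ext h8)
    obtain ⟨g, h, hgh⟩ := exists_isUnit_trace_commutator_left ρ habs t₀ hK
    set v := s (t₀ * g * h) - s (g * t₀ * h)
    have hvπ : π v ∉ m := by
      intro hvm
      refine (IsLocalRing.mem_maximalIdeal _).mp ?_ hgh
      have := m.add_mem hvm (m.sub_mem (Ideal.pow_le_self (n := M) (by omega) (hsr (t₀ * g * h)))
        (Ideal.pow_le_self (n := M) (by omega) (hsr (g * t₀ * h))))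
      rw [map_sub] at this
      convert this using 1
      ring
    refine hzne (hYinv v hvπ _ (hYE f y hy) ?_)
    have hcc : c (t₀ * g * h) = c (g * t₀ * h) := by
      show (χ _ : ZMod (p ^ M)).val = (χ _ : ZMod (p ^ M)).val
      rw [map_mul χ, map_mul χ, map_mul χ (g * t₀), map_mul χ g, mul_comm (χ t₀)]
    set z := E f y
    have h1 : (t₀ * g * h) • z = (g * t₀ * h) • z := by
      rw [mul_smul, mul_smul, mul_smul, mul_smul, ← mul_smul g h z, hconj, mul_smul, hconj,
        smul_comm g a₀]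
    have h2 : (t₀ * g * h)⁻¹ • (a₀ • z) = (g * t₀ * h)⁻¹ • (a₀ • z) := by
      have hz1 : t₀⁻¹ • (a₀ • z) = z := by
        rw [inv_smul_eq_iff, ← one_smul AbsGal z, hconj, one_smul]
      have hz2 : t₀⁻¹ • (g⁻¹ • (a₀ • z)) = g⁻¹ • z := by
        rw [inv_smul_eq_iff, hconj, smul_comm g⁻¹ a₀]
      simp only [mul_inv_rev, mul_smul]
      rw [hz1, hz2]
    have hinjc : ∀ w : X, a₀ • w = 0 → w = 0 := fun w hw => by
      have hcop : a₀.Coprime (p ^ M) := by
        rw [← ZMod.isUnit_iff_coprime]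
        have h2 := (hc t₀).symm.trans hza
        have := (hζ.isOfFinOrder (NeZero.ne _)).pow_eq_pow_iff_modEq.mp h2
        rw [← hζ.eq_orderOf, ← ZMod.natCast_eq_natCast_iff] at this
        rw [← this, ZMod.natCast_zmod_val]
        exact (χ t₀).isUnit
      funext i
      have := congrFun hw i
      change a₀ • (w : Fin D.d → ZMod (p ^ M)) i = 0 at this
      rw [nsmul_eq_mul] at this
      exact ((ZMod.isUnit_iff_coprime a₀ _).mpr hcop).mul_right_eq_zero.mp this
    refine hinjc _ ?_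
    have e : E v z = (c (g * t₀ * h)) • ((t₀ * g * h)⁻¹ • z) -
        (c (g * t₀ * h)) • ((g * t₀ * h)⁻¹ • z) := by
      rw [map_sub]
      show E (s (t₀ * g * h)) z - E (s (g * t₀ * h)) z = _
      rw [hEs, hEs, h1, hcc]
      abel
    rw [e, ← nsmul_sub, ← mul_nsmul', mul_comm, mul_nsmul', nsmul_sub]
    simp only [← smul_comm (_ : AbsGal) a₀, h2, sub_self, nsmul_zero]
  -- conclusion
  refine ⟨u, hu, levelEnd_injective D M (AddMonoidHom.ext fun x => ?_)⟩
  rw [map_mul, ordElem, map_mul, map_sub, map_sub, map_natCast, map_one, galAlg_single,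
    galAlg_single, one_smul, one_smul, map_mul, map_sub, map_sub, map_natCast, map_one, map_zero]
  show t₀ • (t • E u x - E u x) - a₀ • (t • E u x - E u x) = 0
  have hw : t • E u x - E u x ∈ Γ := AddSubgroup.subset_closure ⟨t, ht, E u x, ⟨x, rfl⟩, rfl⟩
  exact sub_eq_zero.mpr (hscal _ hw (hZ _ (hΓY hw)))

end Fermat.Agent.OrdinaryAtP

end
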