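import Fermat.Agent.Semistable.Spaces

/-!
# No trivial quotient of the moved torsion

The statement used for ordinarity at `p` when `p` exactly divides the level.
-/

set_option autoImplicit false

noncomputable section

namespace Fermat.Agent.OrdinaryAtP

open ModularCurve
open Arith (QBar GQ)
open scoped Pointwise

variable (A : ValuationSubring QBar) (N p : ℕ)

/-- The group generated by the differences `τ x - x` for `τ` in the inertia group and `x` of
`p`-power order. -/
def movedGroup : AddSubgroup (JZero N) :=
  AddSubgroup.closure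
    {y | ∃ τ ∈ A.inertiaSubgroupIn ℚ, ∃ (x : JZero N) (n : ℕ), p ^ n • x = 0 ∧ τ • x - x = y}

/-- An inertia stable group of moved `p`-torsion classes has no nonzero invariant map to `ℤ/p`. -/
def NoTrivialQuotient : Prop :=
  ∀ H : AddSubgroup (JZero N), H ≤ movedGroup A N p → (∀ y ∈ H, p • y = 0) →
    ∀ hstab : ∀ τ ∈ A.inertiaSubgroupIn ℚ, ∀ y ∈ H, τ • y ∈ H,
      ∀ π : H →+ ZMod p,
        (∀ τ (hτ : τ ∈ A.inertiaSubgroupIn ℚ) (y : H), π ⟨τ • (y : JZero N), hstab τ hτ y y.2⟩ = π y) →
          π = 0

end Fermat.Agent.OrdinaryAtP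

end
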